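import Mathlib.RingTheory.DedekindDomain.Ideal.Lemmas
import Mathlib.RingTheory.Polynomial.Cyclotomic.Eval
import Mathlib.RingTheory.RootsOfUnity.CyclotomicUnits
import Mathlib.NumberTheory.MulChar.Basic
import Mathlib.FieldTheory.Finite.Basic

/-!
# Orders at a prime, and residue characters

`ordAt P x` is the exponent of the prime `P` in the factorisation of `(x)`. A character of a finite field with
values in the `n`-th roots of unity is given by its residues modulo a prime not containing `n`.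
-/

set_option autoImplicit false

noncomputable section

open UniqueFactorizationMonoid
open scoped Classical

namespace FA.GaussValuation

variable {R : Type*} [CommRing R] [IsDomain R] [IsDedekindDomain R] {P : Ideal R}

/-- The exponent of `P` in the factorisation of `(x)`. -/
def ordAt (P : Ideal R) (x : R) : ℕ := (normalizedFactors (Ideal.span {x})).count P

theorem ordAt_mul {x y : R} (hx : x ≠ 0) (hy : y ≠ 0) : ordAt P (x * y) = ordAt P x + ordAt P y := by
  rw [ordAt, ← Ideal.span_singleton_mul_span_singleton,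
    normalizedFactors_mul (by simpa using hx) (by simpa using hy), Multiset.count_add]
  rfl

theorem ordAt_of_notMem {x : R} (h : x ∉ P) : ordAt P x = 0 :=
  Multiset.count_eq_zero.mpr fun hm =>
    h (Ideal.dvd_span_singleton.mp (dvd_of_mem_normalizedFactors hm))

theorem ordAt_one (hP : P.IsPrime) : ordAt P (1 : R) = 0 :=
  ordAt_of_notMem fun h => hP.ne_top ((Ideal.eq_top_iff_one P).mpr h)

theorem ordAt_pow (hP : P.IsPrime) {x : R} (hx : x ≠ 0) (n : ℕ) : ordAt P (x ^ n) = n * ordAt P x := by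
  induction n with
  | zero => rw [pow_zero, ordAt_one hP, zero_mul]
  | succ n ih => rw [pow_succ, ordAt_mul (pow_ne_zero n hx) hx, ih]; ring

theorem ordAt_prod (hP : P.IsPrime) {α : Type*} (s : Finset α) (g : α → R) (h : ∀ i ∈ s, g i ≠ 0) :
    ordAt P (∏ i ∈ s, g i) = ∑ i ∈ s, ordAt P (g i) := by
  induction s using Finset.induction_on with
  | empty => rw [Finset.prod_empty, Finset.sum_empty, ordAt_one hP]
  | insert a s ha ih =>
    rw [Finset.prod_insert ha, Finset.sum_insert ha, ordAt_mul (h a (Finset.mem_insert_self a s))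
      (Finset.prod_ne_zero_iff.mpr fun i hi => h i (Finset.mem_insert_of_mem hi)),
      ih fun i hi => h i (Finset.mem_insert_of_mem hi)]

theorem ordAt_of_associated {x y : R} (h : Associated x y) : ordAt P x = ordAt P y := by
  rw [ordAt, ordAt, Ideal.span_singleton_eq_span_singleton.mpr h]

theorem ordAt_of_isUnit (hP : P.IsPrime) {x : R} (h : IsUnit x) : ordAt P x = 0 := by
  rw [ordAt_of_associated (associated_one_iff_isUnit.mpr h), ordAt_one hP]

section cyclo

variable {q : ℕ} [hq : Fact q.Prime] {ζ : R}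

omit [IsDedekindDomain R] in
theorem associated_sub_one (hζ : IsPrimitiveRoot ζ q) {μ : R} (hμ : μ ∈ primitiveRoots q R) :
    Associated (ζ - 1) (1 - μ) := by
  have hμ' := (mem_primitiveRoots hq.out.pos).mp hμ
  obtain ⟨i, -, hi, rfl⟩ := (IsPrimitiveRoot.isPrimitiveRoot_iff hζ).mp hμ'
  rw [← neg_sub (ζ ^ i) 1]
  exact (hζ.associated_sub_one_pow_sub_one_of_coprime hi).neg_right

omit [IsDedekindDomain R] in
theorem natCast_eq_prod (hζ : IsPrimitiveRoot ζ q) : (q : R) = ∏ μ ∈ primitiveRoots q R, (1 - μ) := by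
  rw [← Polynomial.eval_one_cyclotomic_prime (R := R) (p := q),
    Polynomial.cyclotomic_eq_prod_X_sub_primitiveRoots hζ, Polynomial.eval_prod]
  exact Finset.prod_congr rfl fun μ _ => by simp

omit [IsDedekindDomain R] in
theorem sub_one_ne_zero (hζ : IsPrimitiveRoot ζ q) : ζ - 1 ≠ 0 :=
  sub_ne_zero.mpr (hζ.ne_one hq.out.one_lt)

/-- `q` has `q - 1` times the order of `ζ - 1`. -/
theorem ordAt_natCast_prime (hP : P.IsPrime) (hζ : IsPrimitiveRoot ζ q) :
    ordAt P (q : R) = (q - 1) * ordAt P (ζ - 1) := by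
  rw [natCast_eq_prod hζ, ordAt_prod hP _ _ fun μ hμ h =>
      sub_one_ne_zero hζ ((associated_sub_one hζ hμ).eq_zero_iff.mpr h),
    Finset.sum_congr rfl fun μ hμ => (ordAt_of_associated (associated_sub_one hζ hμ)).symm,
    Finset.sum_const, IsPrimitiveRoot.card_primitiveRoots hζ, Nat.totient_prime hq.out, smul_eq_mul]

omit [IsDedekindDomain R] in
theorem sub_one_mem (hP : P.IsPrime) (hζ : IsPrimitiveRoot ζ q) (hqP : (q : R) ∈ P) : ζ - 1 ∈ P := by
  rw [natCast_eq_prod hζ, hP.prod_mem_iff] at hqP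
  obtain ⟨μ, hμ, h⟩ := hqP
  obtain ⟨u, hu⟩ := (associated_sub_one hζ hμ).symm
  rw [← hu]
  exact P.mul_mem_right _ h

end cyclo

section residue

variable {n : ℕ} [NeZero n]

omit [IsDedekindDomain R] in
/-- Reduction is injective on `n`-th roots of unity. -/
theorem eq_of_mk_eq (hn : (n : R) ∉ P) {a b : R} (ha : a ^ n = 1) (hb : b ^ n = 1)
    (h : Ideal.Quotient.mk P a = Ideal.Quotient.mk P b) : a = b := by
  set e := a * b ^ (n - 1) with he
  have hbn : b * b ^ (n - 1) = 1 := by rw [← pow_succ', Nat.sub_add_cancel (NeZero.pos n), hb]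
  have he1 : Ideal.Quotient.mk P e = 1 := by rw [he, map_mul, h, ← map_mul, hbn, map_one]
  have hen : e ^ n = 1 := by rw [he, mul_pow, ha, one_mul, ← pow_mul, mul_comm, pow_mul, hb, one_pow]
  rcases eq_or_ne e 1 with h1 | h1
  · calc a = e * b := by rw [he, mul_assoc, mul_comm _ b, hbn, mul_one]
      _ = b := by rw [h1, one_mul]
  · exfalso
    have hg := geom_sum_mul e n
    rw [hen, sub_self] at hg
    have h0 := congrArg (Ideal.Quotient.mk P) ((mul_eq_zero.mp hg).resolve_right (sub_ne_zero.mpr h1))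
    rw [map_sum, map_zero] at h0
    refine hn (Ideal.Quotient.eq_zero_iff_mem.mp ?_)
    simpa [map_pow, he1] using h0

omit [IsDedekindDomain R] in
theorem isPrimitiveRoot_mk (hn : (n : R) ∉ P) {z : R} (hz : IsPrimitiveRoot z n) :
    IsPrimitiveRoot (Ideal.Quotient.mk P z) n := by
  refine ⟨by rw [← map_pow, hz.pow_eq_one, map_one], fun l hl => hz.dvd_of_pow_eq_one l ?_⟩
  exact eq_of_mk_eq hn (by rw [← pow_mul, mul_comm, pow_mul, hz.pow_eq_one, one_pow]) (one_pow n)
    (by rw [map_pow, hl, map_one])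

omit [IsDedekindDomain R] in
/-- **A character with prescribed residues.** -/
theorem exists_residueCharacter [hP : P.IsPrime] (hn : (n : R) ∉ P) {z : R} (hz : IsPrimitiveRoot z n)
    {F : Type*} [Field F] [Fintype F] (ι : F →+* R ⧸ P) {r : ℕ} (hr : Fintype.card F - 1 = n * r) :
    ∃ χ : MulChar F R, χ ^ n = 1 ∧ ∀ x, Ideal.Quotient.mk P (χ x) = ι (x ^ r) := by
  have hr0 : r ≠ 0 := by
    rintro rfl
    have := Fintype.one_lt_card (α := F)
    omega
  have hω := isPrimitiveRoot_mk hn hz
  have hroot : ∀ x : Fˣ, ∃ c : R, c ^ n = 1 ∧ Ideal.Quotient.mk P c = ι ((x : F) ^ r) := by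
    intro x
    obtain ⟨i, -, hi⟩ := hω.eq_pow_of_pow_eq_one (ξ := ι ((x : F) ^ r)) (by
      rw [← map_pow, ← pow_mul, mul_comm, ← hr, FiniteField.pow_card_sub_one_eq_one _ x.ne_zero, map_one])
    exact ⟨z ^ i, by rw [← pow_mul, mul_comm, pow_mul, hz.pow_eq_one, one_pow], by rw [map_pow, hi]⟩
  choose c hc hcι using hroot
  have hmul : ∀ x y, c (x * y) = c x * c y := fun x y =>
    eq_of_mk_eq hn (hc _) (by rw [mul_pow, hc, hc, one_mul])
      (by rw [map_mul, hcι, hcι, hcι, Units.val_mul, mul_pow, map_mul])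
  let g : Fˣ →* Rˣ :=
    MonoidHom.mk' (fun x => Units.ofPowEqOne (c x) n (hc x) (NeZero.ne n)) fun x y => Units.ext (hmul x y)
  have hunit : ∀ x : Fˣ, MulChar.ofUnitHom g (x : F) = c x := fun x => MulChar.ofUnitHom_coe g x
  refine ⟨MulChar.ofUnitHom g, MulChar.ext fun x => ?_, fun x => ?_⟩
  · rw [MulChar.pow_apply_coe, hunit, hc, MulChar.one_apply_coe]
  · by_cases hx : IsUnit x
    · obtain ⟨u, rfl⟩ := hx
      rw [hunit, hcι]
    · rw [MulChar.map_nonunit _ hx, map_zero]
      rw [isUnit_iff_ne_zero, not_not] at hx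
      rw [hx, zero_pow hr0, map_zero]

end residue

end FA.GaussValuation
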