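import Fermat.Agent.GaussValuation.Descent
import Fermat.Agent.Root.SummaryKroneckerWeber

/-!
# Stickelberger's theorem for abelian fields

An abelian field lies in some `ℚ(ζ_m)`. The map from `(ℤ/m)ˣ` to its Galois group sends each prime `ℓ ∤ m` to the
Frobenius at `ℓ`, and the Stickelberger relations push forward along it. For a quadratic field the nontrivial
automorphism inverts classes, so `∑ χ(a) a` annihilates the class group.
-/

set_option autoImplicit false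
set_option linter.unusedSectionVars false

noncomputable section

open NumberField IsDedekindDomain
open scoped Classical

namespace FA.GaussValuation

open FA.IwasawaStructure

variable {m : ℕ} [NeZero m] {L : Type*} [Field L] [NumberField L] [IsCyclotomicExtension {m} ℚ L]
variable {K : Type*} [Field K] [NumberField K] [Algebra K L] [IsGalois ℚ K]

/-- The automorphism with exponent `ℓ` is the Frobenius at the primes over `ℓ`. -/
theorem intAut_sub_pow_mem {ℓ : ℕ} [hℓ : Fact ℓ.Prime] (hℓm : ¬ ℓ ∣ m) {w : HeightOneSpectrum (𝓞 L)}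
    (hw : (ℓ : 𝓞 L) ∈ w.asIdeal) {σ : L ≃ₐ[ℚ] L}
    (hσ : IsCyclotomicExtension.Rat.galEquivZMod m L σ = qUnit m hℓm) (x : 𝓞 L) :
    intAut σ x - x ^ ℓ ∈ w.asIdeal := by
  have := w.isMaximal
  let := Ideal.Quotient.field w.asIdeal
  have : CharP (𝓞 L ⧸ w.asIdeal) ℓ := by
    refine (CharP.charP_iff_prime_eq_zero hℓ.out).mpr ?_
    rw [← map_natCast (Ideal.Quotient.mk w.asIdeal), Ideal.Quotient.eq_zero_iff_mem]
    exact hw
  let g₁ : 𝓞 L →ₐ[ℤ] 𝓞 L ⧸ w.asIdeal := ((Ideal.Quotient.mk w.asIdeal).comp (intAut σ).toRingHom).toIntAlgHom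
  let g₂ : 𝓞 L →ₐ[ℤ] 𝓞 L ⧸ w.asIdeal :=
    ((frobenius (𝓞 L ⧸ w.asIdeal) ℓ).comp (Ideal.Quotient.mk w.asIdeal)).toIntAlgHom
  have hz := IsCyclotomicExtension.zeta_spec m ℚ L
  have h : g₁ = g₂ := AlgHom.ext_of_adjoin_eq_top (IsCyclotomicExtension.Rat.adjoin_singleton_eq_top hz)
    fun y hy => by
      obtain rfl := Set.mem_singleton_iff.mp hy
      show Ideal.Quotient.mk w.asIdeal (intAut σ hz.toInteger) = Ideal.Quotient.mk w.asIdeal hz.toInteger ^ ℓ
      rw [intAut_of_pow_eq_one σ hz.toInteger_isPrimitiveRoot.pow_eq_one, ← map_pow, expo, hσ, qUnit,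
        ZMod.coe_unitOfCoprime, ZMod.val_natCast, ← pow_eq_pow_mod ℓ hz.toInteger_isPrimitiveRoot.pow_eq_one]
  rw [← Ideal.Quotient.eq_zero_iff_mem, map_sub, map_pow, sub_eq_zero]
  exact DFunLike.congr_fun h x

/-- The product of the conjugates of a degree one prime prime to the conductor. -/
theorem prod_conjAt_galois {p : HeightOneSpectrum (𝓞 K)} (hpm : (m : 𝓞 K) ∉ p.asIdeal)
    (hp : (Ideal.absNorm p.asIdeal).Prime) (L : Type*) [Field L] [NumberField L] [IsCyclotomicExtension {m} ℚ L]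
    [Algebra K L] :
    ∏ g : K ≃ₐ[ℚ] K, (conjAt p g).asIdeal = Ideal.span {((Ideal.absNorm p.asIdeal : ℕ) : 𝓞 K)} := by
  set q := Ideal.absNorm p.asIdeal with hq
  have := Fact.mk hp
  obtain ⟨⟨v, hvp⟩, hqm⟩ := exists_prime_over (L := L) p hpm
  have hqv : (q : 𝓞 L) ∈ v.asIdeal := by
    rw [← map_natCast (algebraMap (𝓞 K) (𝓞 L)), ← Ideal.mem_comap, hvp]
    exact Ideal.absNorm_mem p.asIdeal
  have : IsGalois ℚ L := IsCyclotomicExtension.isGalois {m} ℚ L
  have : Normal ℚ L := IsGalois.to_normal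
  set res : (L ≃ₐ[ℚ] L) →* (K ≃ₐ[ℚ] K) := AlgEquiv.restrictNormalHom K
  set c := (Finset.univ.filter fun σ => res σ = 1).card
  have hfib : ∀ g, (Finset.univ.filter fun σ => res σ = g).card = c := fun g =>
    MonoidHom.card_fiber_eq_of_mem_range res (AlgEquiv.restrictNormalHom_surjective L g) ⟨1, map_one res⟩
  set d := Module.finrank K L
  have hc : c = d := by
    have h := Finset.card_eq_sum_card_fiberwise (s := (Finset.univ : Finset (L ≃ₐ[ℚ] L)))
      (t := (Finset.univ : Finset (K ≃ₐ[ℚ] K))) (f := res) fun σ _ => Finset.mem_univ _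
    rw [Finset.sum_congr rfl fun g _ => hfib g, Finset.sum_const, smul_eq_mul, Finset.card_univ, Finset.card_univ,
      ← Nat.card_eq_fintype_card, ← Nat.card_eq_fintype_card, IsGalois.card_aut_eq_finrank,
      IsGalois.card_aut_eq_finrank, ← Module.finrank_mul_finrank ℚ K L] at h
    exact (Nat.eq_of_mul_eq_mul_left Module.finrank_pos h).symm
  have h := congrArg (Ideal.relNorm (𝓞 K)) (prod_conjAt_eq_span_pow hqv hqm)
  rw [map_prod, Finset.prod_congr rfl fun σ _ => (relNorm_conjAt hvp hp rfl (absNorm_eq hqv hqm) σ).2,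
    Finset.prod_pow, Ideal.relNorm_singleton, map_pow, ← Ideal.span_singleton_pow] at h
  have hf0 : orderOf (q : ZMod m) ≠ 0 := by
    rw [← orderOf_qUnit hqm]
    exact (orderOf_pos _).ne'
  have hnorm : Algebra.intNorm (𝓞 K) (𝓞 L) (q : 𝓞 L) = (q : 𝓞 K) ^ d := by
    refine RingOfIntegers.ext ?_
    rw [show ((Algebra.intNorm (𝓞 K) (𝓞 L) (q : 𝓞 L) : 𝓞 K) : K) = Algebra.norm K ((q : 𝓞 L) : L) from
        Algebra.algebraMap_intNorm (A := 𝓞 K) (K := K) (L := L) (q : 𝓞 L)]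
    rw [show ((q : 𝓞 L) : L) = algebraMap K L (q : K) by simp, Algebra.norm_algebraMap]
    simp
    rfl
  rw [hnorm, ← Ideal.span_singleton_pow] at h
  have h1 := pow_left_injective hf0 h
  have h2 : ∀ σ : L ≃ₐ[ℚ] L, σ.restrictNormal K = res σ := fun σ => rfl
  simp only [h2] at h1
  rw [← Finset.prod_fiberwise' Finset.univ res (fun g => (conjAt p g).asIdeal)] at h1
  simp only [Finset.prod_const, hfib, hc, Finset.prod_pow] at h1
  exact pow_left_injective Module.finrank_pos.ne' h1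

/-- The norm of a class of a Galois subfield of a cyclotomic field. -/
theorem prod_classAut_galois (m : ℕ) [NeZero m] (L : Type*) [Field L] [NumberField L]
    [IsCyclotomicExtension {m} ℚ L] [Algebra K L] (C : ClassGroup (𝓞 K)) :
    ∏ g : K ≃ₐ[ℚ] K, classAut g⁻¹ C = 1 := by
  have hres : ∀ g : K ≃ₐ[ℚ] K, g.restrictNormal K = g := fun g =>
    AlgEquiv.ext fun x => AlgEquiv.restrictNormal_commutes g K x
  have h := prod_classAut_restrict_pow_eq_one (L := K) m (fun _ => 1) (fun p hpm hp => by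
    simp only [pow_one, hres]
    rw [← map_prod]
    refine Eq.trans (congrArg ClassGroup.mk0 (Subtype.ext ?_)) ((ClassGroup.mk0_eq_one_iff
      (I := Ideal.span {((Ideal.absNorm p.asIdeal : ℕ) : 𝓞 K)}) (mem_nonZeroDivisors_iff_ne_zero.mpr
        (by simpa using hp.ne_zero))).mpr ⟨⟨_, Ideal.submodule_span_eq.symm⟩⟩)
    rw [Submonoid.coe_finsetProd]
    exact prod_conjAt_galois hpm hp L) C
  simpa only [pow_one, hres] using h

end FA.GaussValuation

namespace FA.GaussValuation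

open FA.IwasawaStructure

theorem prod_zpow_fintype {α M : Type*} [Fintype α] [CommGroup M] (x : M) (g : α → ℤ) :
    ∏ a, x ^ g a = x ^ ∑ a, g a := by
  induction (Finset.univ : Finset α) using Finset.induction_on with
  | empty => simp
  | insert a s ha ih => rw [Finset.prod_insert ha, Finset.sum_insert ha, ih, zpow_add]

variable (K : Type*) [Field K] [NumberField K] [IsAbelianGalois ℚ K]

section cyclotomic

variable (N : ℕ) [NeZero N] (L : Type*) [Field L] [NumberField L] [IsCyclotomicExtension {N} ℚ L] [Algebra K L]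

include L in
/-- **Stickelberger's theorem for abelian fields**, at every `N` with the field inside `ℚ(ζ_N)`. -/
theorem stickelberger_abelian_cyclotomic :
    ∃ ρ : (ZMod N)ˣ →* (K ≃ₐ[ℚ] K), Function.Surjective ρ ∧
      (∀ (ℓ : ℕ) (hℓ : ℓ.Coprime N), ℓ.Prime → ∀ p : HeightOneSpectrum (𝓞 K), (ℓ : 𝓞 K) ∈ p.asIdeal →
        ∀ x, intAut (ρ (ZMod.unitOfCoprime ℓ hℓ)) x - x ^ ℓ ∈ p.asIdeal) ∧
      (∀ (b : ℕ) (C : ClassGroup (𝓞 K)), ∏ a : (ZMod N)ˣ, classAut (ρ a)⁻¹ C ^ (b * (a : ZMod N).val / N) = 1) ∧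
      ∀ C : ClassGroup (𝓞 K), ∏ g : K ≃ₐ[ℚ] K, classAut g⁻¹ C = 1 := by
  have : IsGalois ℚ L := IsCyclotomicExtension.isGalois {N} ℚ _
  have : Normal ℚ L := IsGalois.to_normal
  set G := IsCyclotomicExtension.Rat.galEquivZMod N L
  refine ⟨(AlgEquiv.restrictNormalHom K).comp G.symm.toMonoidHom, ?_, ?_, fun b C => ?_,
    fun C => prod_classAut_galois N L C⟩
  · exact (AlgEquiv.restrictNormalHom_surjective L).comp G.symm.surjective
  · intro ℓ hℓN hℓ p hℓp x
    have := Fact.mk hℓ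
    have hℓm : ¬ ℓ ∣ N := (Nat.Prime.coprime_iff_not_dvd hℓ).mp hℓN
    have := p.isMaximal
    obtain ⟨P, hP, hPp⟩ :=
      Ideal.exists_maximal_ideal_liesOver_of_isIntegral (S := 𝓞 L) p.asIdeal
    let w : HeightOneSpectrum (𝓞 L) :=
      ⟨P, hP.isPrime, fun h => p.ne_bot (by rw [hPp.over, h, Ideal.under_bot])⟩
    have hw : (ℓ : 𝓞 L) ∈ w.asIdeal := by
      rw [← map_natCast (algebraMap (𝓞 K) (𝓞 L)), ← Ideal.mem_comap]
      show (ℓ : 𝓞 K) ∈ P.under (𝓞 K)
      rw [← hPp.over]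
      exact hℓp
    have h := intAut_sub_pow_mem (m := N) hℓm hw (σ := G.symm (qUnit N hℓm)) (G.apply_symm_apply _)
      (algebraMap (𝓞 K) _ x)
    rw [hPp.over, Ideal.under_def, Ideal.mem_comap, map_sub, map_pow]
    convert h using 3
    exact RingOfIntegers.ext (AlgEquiv.restrictNormal_commutes _ K (x : K))
  · refine (Fintype.prod_equiv G.toEquiv _ _ fun σ => ?_).symm.trans
      (stickelberger_subfield (L := L) (m := N) b C)
    simp only [MonoidHom.comp_apply, MulEquiv.coe_toMonoidHom, MulEquiv.toEquiv_eq_coe, MulEquiv.coe_toEquiv,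
      MulEquiv.symm_apply_apply]
    rfl

include L in
/-- **Quadratic fields**: `∑ χ(a) a` annihilates the class group, at every `N` with the field inside
`ℚ(ζ_N)`. -/
theorem stickelberger_quadratic_cyclotomic (hK : Module.finrank ℚ K = 2) :
    ∃ χ : (ZMod N)ˣ →* ℤˣ, χ ≠ 1 ∧
      (∀ (ℓ : ℕ) (hℓ : ℓ.Coprime N), ℓ.Prime → ∀ p : HeightOneSpectrum (𝓞 K), (ℓ : 𝓞 K) ∈ p.asIdeal →
        χ (ZMod.unitOfCoprime ℓ hℓ) = 1 → ∀ x, x - x ^ ℓ ∈ p.asIdeal) ∧
      ∀ C : ClassGroup (𝓞 K), C ^ (∑ a : (ZMod N)ˣ, (χ a : ℤ) * ((a : ZMod N).val : ℤ)) = 1 := by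
  obtain ⟨ρ, hρ, hfrob, hstick, hnorm⟩ := stickelberger_abelian_cyclotomic K N L
  have hcard : Fintype.card (K ≃ₐ[ℚ] K) = 2 := by
    rw [← Nat.card_eq_fintype_card, IsGalois.card_aut_eq_finrank, hK]
  have htwo : ∀ g h : K ≃ₐ[ℚ] K, g ≠ 1 → h ≠ 1 → g = h := fun g h hg hh => by
    by_contra hne
    have := Finset.card_le_univ ({1, g, h} : Finset (K ≃ₐ[ℚ] K))
    rw [hcard, Finset.card_eq_three.mpr ⟨1, g, h, hg.symm, hh.symm, hne, rfl⟩] at this
    omega
  let ψ : (K ≃ₐ[ℚ] K) →* ℤˣ := MonoidHom.mk' (fun g => if g = 1 then 1 else -1) fun g h => by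
    rcases eq_or_ne g 1 with rfl | hg
    · simp
    rcases eq_or_ne h 1 with rfl | hh
    · simp
    · obtain rfl := htwo g h hg hh
      have hgg : g * g = 1 := by
        by_contra h1
        exact hg (mul_left_cancel ((htwo _ _ h1 hg).trans (mul_one g).symm))
      simp [hgg, hg]
  refine ⟨ψ.comp ρ, fun h => ?_, fun ℓ hℓ hℓp p hp h x => ?_, fun C => ?_⟩
  · obtain ⟨g, hg⟩ : ∃ g : K ≃ₐ[ℚ] K, g ≠ 1 := Fintype.exists_ne_of_one_lt_card (by omega) 1
    obtain ⟨a, rfl⟩ := hρ g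
    have := DFunLike.congr_fun h a
    simp [ψ, hg] at this
  · have h1 : ρ (ZMod.unitOfCoprime ℓ hℓ) = 1 := by
      by_contra hne
      simp [ψ, hne] at h
    have := hfrob ℓ hℓ hℓp p hp x
    rwa [h1, show intAut (1 : K ≃ₐ[ℚ] K) x = x from RingOfIntegers.ext rfl] at this
  · have hone : ∀ D : ClassGroup (𝓞 K), classAut (1 : K ≃ₐ[ℚ] K)⁻¹ D = D := fun D => by
      obtain ⟨I, rfl⟩ := ClassGroup.mk0_surjective D
      rw [inv_one, classAut, ClassGroup.mulEquiv_mk0]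
      exact congrArg ClassGroup.mk0 (Subtype.ext (by
        show (I : Ideal (𝓞 K)).map _ = (I : Ideal (𝓞 K))
        exact (Ideal.map_id (I : Ideal (𝓞 K)))))
    have hact : ∀ g : K ≃ₐ[ℚ] K, classAut g⁻¹ C = C ^ ((ψ g : ℤˣ) : ℤ) := fun g => by
      rcases eq_or_ne g 1 with rfl | hg
      · rw [hone, map_one, Units.val_one, zpow_one]
      · have h := hnorm C
        rw [Fintype.prod_eq_mul 1 g hg.symm fun x hx => absurd (htwo x g hx.1 hg) hx.2, hone] at h
        simp [ψ, hg, eq_inv_of_mul_eq_one_right h]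
    have h := hstick N C
    simp only [hact, Nat.mul_div_cancel_left _ (NeZero.pos N), ← zpow_natCast, ← zpow_mul] at h
    rwa [FA.GaussValuation.prod_zpow_fintype] at h

end cyclotomic

/-- **Stickelberger's theorem for abelian fields.** -/
theorem stickelberger_abelian_field :
    ∃ (m : ℕ) (_ : NeZero m) (ρ : (ZMod m)ˣ →* (K ≃ₐ[ℚ] K)), Function.Surjective ρ ∧
      (∀ (ℓ : ℕ) (hℓ : ℓ.Coprime m), ℓ.Prime → ∀ p : HeightOneSpectrum (𝓞 K), (ℓ : 𝓞 K) ∈ p.asIdeal →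
        ∀ x, intAut (ρ (ZMod.unitOfCoprime ℓ hℓ)) x - x ^ ℓ ∈ p.asIdeal) ∧
      (∀ (b : ℕ) (C : ClassGroup (𝓞 K)), ∏ a : (ZMod m)ˣ, classAut (ρ a)⁻¹ C ^ (b * (a : ZMod m).val / m) = 1) ∧
      ∀ C : ClassGroup (𝓞 K), ∏ g : K ≃ₐ[ℚ] K, classAut g⁻¹ C = 1 := by
  obtain ⟨N, hN, ⟨j⟩⟩ := FA.Summary.kroneckerWeber_cyclotomicField K
  have : NeZero N := ⟨hN.ne'⟩
  let := j.toRingHom.toAlgebra
  have : IsCyclotomicExtension {N} ℚ (CyclotomicField N ℚ) := CyclotomicField.isCyclotomicExtension N ℚ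
  exact ⟨N, inferInstance, stickelberger_abelian_cyclotomic K N (CyclotomicField N ℚ)⟩

/-- **Quadratic fields**: `∑ χ(a) a` annihilates the class group. -/
theorem stickelberger_quadratic_field (hK : Module.finrank ℚ K = 2) :
    ∃ (m : ℕ) (_ : NeZero m) (χ : (ZMod m)ˣ →* ℤˣ), χ ≠ 1 ∧
      (∀ (ℓ : ℕ) (hℓ : ℓ.Coprime m), ℓ.Prime → ∀ p : HeightOneSpectrum (𝓞 K), (ℓ : 𝓞 K) ∈ p.asIdeal →
        χ (ZMod.unitOfCoprime ℓ hℓ) = 1 → ∀ x, x - x ^ ℓ ∈ p.asIdeal) ∧
      ∀ C : ClassGroup (𝓞 K), C ^ (∑ a : (ZMod m)ˣ, (χ a : ℤ) * ((a : ZMod m).val : ℤ)) = 1 := by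
  obtain ⟨N, hN, ⟨j⟩⟩ := FA.Summary.kroneckerWeber_cyclotomicField K
  have : NeZero N := ⟨hN.ne'⟩
  let := j.toRingHom.toAlgebra
  have : IsCyclotomicExtension {N} ℚ (CyclotomicField N ℚ) := CyclotomicField.isCyclotomicExtension N ℚ
  exact ⟨N, inferInstance, stickelberger_quadratic_cyclotomic K N (CyclotomicField N ℚ) hK⟩

end FA.GaussValuation
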