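import Fermat.Agent.GaussValuation.Basic
import Fermat.Agent.IwasawaStructure.JacobiSums
import Mathlib.NumberTheory.NumberField.Cyclotomic.Galois

/-!
# The primes of `ℚ(ζ_m)` over a prime not dividing `m`

They are the `σ⁻¹ v`, and `σ⁻¹ v = τ⁻¹ v` exactly when `a(σ)` is `a(τ)` times a power of `q` modulo `m`. The powers
`q ^ i` with `i` below the residue degree are distinct modulo `m`, and `q` has order one at each of them.
-/

set_option autoImplicit false
set_option linter.unusedSectionVars false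

noncomputable section

open NumberField IsDedekindDomain
open scoped Classical Pointwise

namespace FA.GaussValuation

section order

variable {R : Type*} [CommRing R] [IsDomain R] [IsDedekindDomain R]

theorem le_ordAt_iff {P : Ideal R} [hP : P.IsPrime] (hP0 : P ≠ ⊥) {x : R} (hx : x ≠ 0) {n : ℕ} :
    n ≤ ordAt P x ↔ x ∈ P ^ n := by
  have hirr : Irreducible P := (Ideal.prime_of_isPrime hP0 hP).irreducible
  rw [← Ideal.dvd_span_singleton, UniqueFactorizationMonoid.dvd_iff_normalizedFactors_le_normalizedFactors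
      (pow_ne_zero n hP0) (by simpa using hx), hirr.normalizedFactors_pow, normalize_eq, ordAt,
    Multiset.le_count_iff_replicate_le]

theorem ordAt_map_ringEquiv {P : Ideal R} [hP : P.IsPrime] (hP0 : P ≠ ⊥) (e : R ≃+* R) {x : R} (hx : x ≠ 0) :
    ordAt (P.map (e : R →+* R)) x = ordAt P (e.symm x) := by
  have hx' : e.symm x ≠ 0 := fun h => hx (by simpa using congrArg e h)
  have hP' : (P.map (e : R →+* R)).IsPrime := Ideal.map_isPrime_of_equiv e
  have hP0' : P.map (e : R →+* R) ≠ ⊥ := fun h =>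
    hP0 ((Ideal.map_eq_bot_iff_of_injective e.injective).mp h)
  refine eq_of_forall_le_iff fun n => ?_
  rw [le_ordAt_iff hP0' hx, le_ordAt_iff hP0 hx', ← Ideal.map_pow]
  rw [Ideal.mem_map_iff_of_surjective (e : R →+* R) e.surjective]
  exact ⟨fun ⟨y, hy, hxy⟩ => by simpa [← hxy] using hy, fun h => ⟨_, h, by simp⟩⟩

end order

open FA.IwasawaStructure

variable {m : ℕ} [NeZero m] {L : Type*} [Field L] [NumberField L] [IsCyclotomicExtension {m} ℚ L]
variable {q : ℕ} [hq : Fact q.Prime] {v : HeightOneSpectrum (𝓞 L)}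

theorem ordAt_conjAt (σ : L ≃ₐ[ℚ] L) {x : 𝓞 L} (hx : x ≠ 0) :
    ordAt (conjAt v σ).asIdeal x = ordAt v.asIdeal (intAut σ x) := by
  rw [conjAt, FA.Ext.conjPrime, ordAt_map_ringEquiv v.ne_bot _ hx, intAut_symm]

theorem notMem_of_not_dvd (hqv : (q : 𝓞 L) ∈ v.asIdeal) (hqm : ¬ q ∣ m) : (m : 𝓞 L) ∉ v.asIdeal := by
  intro h
  have hco : Nat.gcd q m = 1 := hq.out.coprime_iff_not_dvd.mpr hqm
  have hg : (Nat.gcd q m : ℤ) = q * Nat.gcdA q m + m * Nat.gcdB q m := Nat.gcd_eq_gcd_ab q m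
  rw [hco, Nat.cast_one] at hg
  refine v.isPrime.ne_top ((Ideal.eq_top_iff_one _).mpr ?_)
  have h1 := congrArg (Int.cast : ℤ → 𝓞 L) hg
  push_cast at h1
  rw [h1]
  exact add_mem (Ideal.mul_mem_right _ _ hqv) (Ideal.mul_mem_right _ _ h)

theorem liesOver_of_mem (hqv : (q : 𝓞 L) ∈ v.asIdeal) : v.asIdeal.LiesOver (Ideal.span {(q : ℤ)}) := by
  have : (Ideal.span {(q : ℤ)}).IsMaximal :=
    ((Ideal.span_singleton_prime (by exact_mod_cast hq.out.ne_zero)).mpr
      (Nat.prime_iff_prime_int.mp hq.out)).isMaximal (by simpa using hq.out.ne_zero)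
  refine ⟨this.eq_of_le (Ideal.comap_ne_top _ v.isPrime.ne_top) ?_⟩
  rw [Ideal.span_le, Set.singleton_subset_iff]
  simpa using hqv

theorem absNorm_eq (hqv : (q : 𝓞 L) ∈ v.asIdeal) (hqm : ¬ q ∣ m) :
    Ideal.absNorm v.asIdeal = q ^ orderOf (q : ZMod m) := by
  have := liesOver_of_mem hqv
  have := v.isPrime
  rw [← Ideal.pow_inertiaDeg q v.asIdeal, IsCyclotomicExtension.Rat.inertiaDeg_eq_of_not_dvd q L v.asIdeal hqm]

theorem ordAt_natCast_eq_one (hqv : (q : 𝓞 L) ∈ v.asIdeal) (hqm : ¬ q ∣ m) : ordAt v.asIdeal (q : 𝓞 L) = 1 := by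
  have := liesOver_of_mem hqv
  have := v.isPrime
  have hmap : (Ideal.span {(q : ℤ)}).map (algebraMap ℤ (𝓞 L)) = Ideal.span {(q : 𝓞 L)} := by
    rw [Ideal.map_span, Set.image_singleton, map_natCast]
  have h := Ideal.IsDedekindDomain.ramificationIdx_eq_normalizedFactors_count (Ideal.span {(q : ℤ)}) v.asIdeal
    (by rw [hmap]; simpa using hq.out.ne_zero)
  rw [IsCyclotomicExtension.Rat.ramificationIdx_eq_of_not_dvd q L v.asIdeal hqm, hmap] at h
  exact h.symm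

/-- The unit `q` modulo `m`. -/
def qUnit (m : ℕ) {q : ℕ} [hq : Fact q.Prime] (hqm : ¬ q ∣ m) : (ZMod m)ˣ :=
  ZMod.unitOfCoprime q (hq.out.coprime_iff_not_dvd.mpr hqm)

theorem orderOf_qUnit (hqm : ¬ q ∣ m) : orderOf (qUnit m hqm) = orderOf (q : ZMod m) := by
  rw [← orderOf_units, qUnit, ZMod.coe_unitOfCoprime]

theorem smul_eq_intAut (g : L ≃ₐ[ℚ] L) (x : 𝓞 L) : g • x = intAut g x := rfl

/-- The stabiliser of `v`. -/
theorem fixed_iff_mem_zpowers (hqv : (q : 𝓞 L) ∈ v.asIdeal) (hqm : ¬ q ∣ m) (g : L ≃ₐ[ℚ] L) :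
    (∀ x, intAut g x ∈ v.asIdeal ↔ x ∈ v.asIdeal) ↔
      IsCyclotomicExtension.Rat.galEquivZMod m L g ∈ Subgroup.zpowers (qUnit m hqm) := by
  have := liesOver_of_mem hqv
  have := v.isMaximal
  rw [qUnit, ← IsCyclotomicExtension.Rat.galEquivZMod_stabilizer m L q v.asIdeal
    (hq.out.coprime_iff_not_dvd.mpr hqm), MulEquiv.mapSubgroup_apply]
  refine Iff.trans ?_ (Subgroup.mem_map_iff_mem (IsCyclotomicExtension.Rat.galEquivZMod m L).injective).symm
  rw [MulAction.mem_stabilizer_iff]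
  refine ⟨fun h => ?_, fun h x => ?_⟩
  · ext y
    rw [Ideal.mem_pointwise_smul_iff_inv_smul_mem, smul_eq_intAut, ← h (intAut g⁻¹ y)]
    rw [show intAut g (intAut g⁻¹ y) = y from RingOfIntegers.ext (g.apply_symm_apply (y : L))]
  · conv_lhs => rw [← h]
    rw [Ideal.mem_pointwise_smul_iff_inv_smul_mem, smul_eq_intAut, intAut_mul_inv]

theorem intAut_comp (g h : L ≃ₐ[ℚ] L) (x : 𝓞 L) : intAut g (intAut h x) = intAut (g * h) x := rfl

/-- When two conjugates of `v` agree. -/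
theorem conjAt_eq_iff (hqv : (q : 𝓞 L) ∈ v.asIdeal) (hqm : ¬ q ∣ m) (σ τ : L ≃ₐ[ℚ] L) :
    conjAt v σ = conjAt v τ ↔ ∃ i < orderOf (q : ZMod m), IsCyclotomicExtension.Rat.galEquivZMod m L σ =
      qUnit m hqm ^ i * IsCyclotomicExtension.Rat.galEquivZMod m L τ := by
  set G := IsCyclotomicExtension.Rat.galEquivZMod m L
  have hkey : conjAt v σ = conjAt v τ ↔ ∀ x, intAut (σ * τ⁻¹) x ∈ v.asIdeal ↔ x ∈ v.asIdeal := by
    constructor
    · intro h x
      rw [← intAut_comp, ← mem_conjAt, h, mem_conjAt]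
      rw [show intAut τ (intAut τ⁻¹ x) = x from RingOfIntegers.ext (τ.apply_symm_apply (x : L))]
    · intro h
      refine HeightOneSpectrum.ext (Ideal.ext fun y => ?_)
      rw [mem_conjAt, mem_conjAt, ← h (intAut τ y), intAut_comp, inv_mul_cancel_right]
  rw [hkey, fixed_iff_mem_zpowers hqv hqm, ← orderOf_qUnit hqm, map_mul, map_inv]
  constructor
  · intro h
    obtain ⟨i, hi⟩ := Submonoid.mem_powers_iff _ _ |>.mp (mem_powers_iff_mem_zpowers.mpr h)
    refine ⟨i % orderOf (qUnit m hqm), Nat.mod_lt _ (orderOf_pos _), ?_⟩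
    rw [pow_mod_orderOf, hi, inv_mul_cancel_right]
  · rintro ⟨i, -, hi⟩
    exact ⟨i, show qUnit m hqm ^ (i : ℤ) = _ by rw [zpow_natCast, hi, mul_inv_cancel_right]⟩

variable (m) in
include m in
/-- The primes over `q` are the conjugates of `v`. -/
theorem exists_conjAt_eq (hqv : (q : 𝓞 L) ∈ v.asIdeal) {w : HeightOneSpectrum (𝓞 L)}
    (hqw : (q : 𝓞 L) ∈ w.asIdeal) : ∃ σ, w = conjAt v σ := by
  have hv := (liesOver_of_mem hqv).over
  have hw := (liesOver_of_mem hqw).over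
  have : IsGalois ℚ L := IsCyclotomicExtension.isGalois {m} ℚ L
  have : IsGaloisGroup (L ≃ₐ[ℚ] L) ℤ (𝓞 L) := IsGaloisGroup.of_isFractionRing _ ℤ (𝓞 L) ℚ L
  obtain ⟨g, hg⟩ := Algebra.IsInvariant.exists_smul_of_under_eq ℤ (𝓞 L) (L ≃ₐ[ℚ] L) v.asIdeal w.asIdeal
    (hv.symm.trans hw)
  refine ⟨g⁻¹, HeightOneSpectrum.ext (hg.trans ?_)⟩
  show v.asIdeal.map _ = v.asIdeal.map (intAut g⁻¹⁻¹ : 𝓞 L →+* 𝓞 L)
  rw [inv_inv]
  rfl

/-- A sum over the automorphisms giving one conjugate. -/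
theorem sum_fibre (hqv : (q : 𝓞 L) ∈ v.asIdeal) (hqm : ¬ q ∣ m) (τ : L ≃ₐ[ℚ] L) (g : ℕ → ℕ) :
    ∑ σ : L ≃ₐ[ℚ] L, (if conjAt v σ = conjAt v τ then g (expo m σ) else 0) =
      ∑ i ∈ Finset.range (orderOf (q : ZMod m)), g (q ^ i * expo m τ % m) := by
  set G := IsCyclotomicExtension.Rat.galEquivZMod m L
  rw [← Finset.sum_filter]
  refine (Finset.sum_bij (fun i _ => G.symm (qUnit m hqm ^ i * G τ)) (fun i hi => ?_) (fun i hi j hj h => ?_)
    (fun σ hσ => ?_) fun i _ => ?_).symm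
  · exact Finset.mem_filter.mpr ⟨Finset.mem_univ _, (conjAt_eq_iff hqv hqm _ τ).mpr
      ⟨i, Finset.mem_range.mp hi, G.apply_symm_apply _⟩⟩
  · have h' := mul_right_cancel (G.symm.injective h)
    rw [← orderOf_qUnit hqm] at hi hj
    exact pow_injOn_Iio_orderOf (Finset.mem_range.mp hi) (Finset.mem_range.mp hj) h'
  · obtain ⟨i, hi, h⟩ := (conjAt_eq_iff hqv hqm σ τ).mp (Finset.mem_filter.mp hσ).2
    exact ⟨i, Finset.mem_range.mpr hi, by rw [← h, G.symm_apply_apply]⟩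
  · congr 1
    show _ = ((G (G.symm _) : (ZMod m)ˣ) : ZMod m).val
    rw [G.apply_symm_apply, Units.val_mul, Units.val_pow_eq_pow_val, qUnit, ZMod.coe_unitOfCoprime,
      ← Nat.cast_pow, ← ZMod.natCast_zmod_val ((G τ : (ZMod m)ˣ) : ZMod m), ← Nat.cast_mul, ZMod.val_natCast]
    rfl

end FA.GaussValuation
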