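import Fermat.Agent.GaussValuation.Factorisation
import Fermat.Agent.IwasawaStructure.Stickelberger
import Mathlib.RingTheory.Ideal.Norm.RelNorm
import Mathlib.NumberTheory.RamificationInertia.Galois

/-!
# Stickelberger's theorem in the subfields of `ℚ(ζ_m)`

The relative norm of the factorisation at a prime over a degree one prime `p` of `K` is an `f`-th power, as the
decomposition group fixes `K` and the generator. So the product of the conjugates of `p` is principal itself.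
-/

set_option autoImplicit false
set_option linter.unusedSectionVars false

noncomputable section

open NumberField IsDedekindDomain
open scoped Classical Pointwise nonZeroDivisors

namespace FA.GaussValuation

open FA.IwasawaStructure

variable {m : ℕ} [NeZero m] {L : Type*} [Field L] [NumberField L] [IsCyclotomicExtension {m} ℚ L]
variable {K : Type*} [Field K] [NumberField K] [Algebra K L] [IsGalois ℚ K]

theorem comap_conjAt {v : HeightOneSpectrum (𝓞 L)} {p : HeightOneSpectrum (𝓞 K)}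
    (hvp : v.asIdeal.comap (algebraMap (𝓞 K) (𝓞 L)) = p.asIdeal) (σ : L ≃ₐ[ℚ] L) :
    (conjAt v σ).asIdeal.comap (algebraMap (𝓞 K) (𝓞 L)) = (conjAt p (σ.restrictNormal K)).asIdeal := by
  ext x
  rw [Ideal.mem_comap, mem_conjAt, mem_conjAt, ← hvp, Ideal.mem_comap]
  rw [show intAut σ (algebraMap (𝓞 K) (𝓞 L) x) = algebraMap (𝓞 K) (𝓞 L) (intAut (σ.restrictNormal K) x) from
    RingOfIntegers.ext (AlgEquiv.restrictNormal_commutes σ K (x : K)).symm]

theorem relNorm_conjAt {v : HeightOneSpectrum (𝓞 L)} {p : HeightOneSpectrum (𝓞 K)}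
    (hvp : v.asIdeal.comap (algebraMap (𝓞 K) (𝓞 L)) = p.asIdeal) {q f : ℕ} (hq : q.Prime)
    (hp : Ideal.absNorm p.asIdeal = q) (hv : Ideal.absNorm v.asIdeal = q ^ f) (σ : L ≃ₐ[ℚ] L) :
    (conjAt v σ).asIdeal.inertiaDeg (𝓞 K) = f ∧
      Ideal.relNorm (𝓞 K) (conjAt v σ).asIdeal = (conjAt p (σ.restrictNormal K)).asIdeal ^ f := by
  have : (conjAt v σ).asIdeal.LiesOver (conjAt p (σ.restrictNormal K)).asIdeal :=
    ⟨(comap_conjAt hvp σ).symm⟩
  have := (conjAt v σ).isMaximal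
  have := (conjAt p (σ.restrictNormal K)).isMaximal
  have h := Ideal.relNorm_eq_pow_of_isMaximal (conjAt v σ).asIdeal (conjAt p (σ.restrictNormal K)).asIdeal
  have h1 := congrArg Ideal.absNorm h
  rw [Ideal.absNorm_relNorm, map_pow, show Ideal.absNorm (conjAt v σ).asIdeal = q ^ f from
      (FA.Ext.absNorm_conjPrime _ v).trans hv, show Ideal.absNorm (conjAt p (σ.restrictNormal K)).asIdeal = q from
      (FA.Ext.absNorm_conjPrime _ p).trans hp] at h1
  have h2 := Nat.pow_right_injective hq.two_le h1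
  exact ⟨h2.symm, by rw [h, ← h2]⟩

/-- The relative norm of an element fixed by the decomposition group is an `f`-th power. -/
theorem exists_intNorm_eq_pow {q : ℕ} [hq : Fact q.Prime] {v : HeightOneSpectrum (𝓞 L)}
    {p : HeightOneSpectrum (𝓞 K)} (hvp : v.asIdeal.comap (algebraMap (𝓞 K) (𝓞 L)) = p.asIdeal)
    (hp : Ideal.absNorm p.asIdeal = q) (hqm : ¬ q ∣ m) {γ : 𝓞 L}
    (hfix : ∀ g : L ≃ₐ[ℚ] L, IsCyclotomicExtension.Rat.galEquivZMod m L g ∈ Subgroup.zpowers (qUnit m hqm) →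
      intAut g γ = γ) :
    ∃ z : 𝓞 K, Algebra.intNorm (𝓞 K) (𝓞 L) γ = z ^ orderOf (q : ZMod m) := by
  set f := orderOf (q : ZMod m) with hf
  have hqv : (q : 𝓞 L) ∈ v.asIdeal := by
    rw [← map_natCast (algebraMap (𝓞 K) (𝓞 L)), ← Ideal.mem_comap, hvp, ← hp]
    exact Ideal.absNorm_mem p.asIdeal
  have : IsGalois ℚ L := IsCyclotomicExtension.isGalois {m} ℚ L
  have : IsGalois K L := IsGalois.tower_top_of_isGalois ℚ K L
  have : IsGaloisGroup (L ≃ₐ[K] L) (𝓞 K) (𝓞 L) := IsGaloisGroup.of_isFractionRing _ (𝓞 K) (𝓞 L) K L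
  have : v.asIdeal.LiesOver p.asIdeal := ⟨hvp.symm⟩
  have := v.isPrime
  have := p.isPrime
  have := v.isMaximal
  have := p.isMaximal
  have hres : v.asIdeal.inertiaDeg (𝓞 K) = f := by
    have h := (relNorm_conjAt hvp hq.out hp (absNorm_eq hqv hqm) (1 : L ≃ₐ[ℚ] L)).1
    rwa [show conjAt v (1 : L ≃ₐ[ℚ] L) = v from HeightOneSpectrum.ext
      (Ideal.ext fun x => by rw [mem_conjAt]; rfl)] at h
  have hram : v.asIdeal.ramificationIdx (𝓞 K) = 1 := by
    have := liesOver_of_mem hqv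
    have h := Ideal.ramificationIdx_tower (R := ℤ) p.asIdeal v.asIdeal
    rw [IsCyclotomicExtension.Rat.ramificationIdx_eq_of_not_dvd q L v.asIdeal hqm] at h
    exact (mul_eq_one.mp h.symm).2
  set H := MulAction.stabilizer (L ≃ₐ[K] L) v.asIdeal with hH
  have hcard : Nat.card H = f := by
    rw [hH, Ideal.card_stabilizer_eq p.asIdeal v.asIdeal,
      Ideal.ramificationIdxIn_eq_ramificationIdx p.asIdeal v.asIdeal (L ≃ₐ[K] L),
      Ideal.inertiaDegIn_eq_inertiaDeg p.asIdeal v.asIdeal (L ≃ₐ[K] L), hram, hres, one_mul]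
  have hγ : (γ : L) ∈ IntermediateField.fixedField H := fun ⟨g, hg⟩ => by
    show g (γ : L) = (γ : L)
    refine congrArg (fun x : 𝓞 L => (x : L)) (hfix (g.restrictScalars ℚ) ((fixed_iff_mem_zpowers hqv hqm _).mp
      fun y => ?_))
    have h : intAut (g.restrictScalars ℚ) y = g • y := rfl
    rw [h]
    conv_lhs => rw [← MulAction.mem_stabilizer_iff.mp hg]
    exact Ideal.smul_mem_pointwise_smul_iff
  set E := IntermediateField.fixedField H
  have hnorm : Algebra.norm K (γ : L) = Algebra.norm K (⟨(γ : L), hγ⟩ : E) ^ f := by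
    generalize hy : (⟨(γ : L), hγ⟩ : E) = y
    rw [← Algebra.norm_norm (S := E), show (γ : L) = algebraMap E L y from congrArg Subtype.val hy,
      Algebra.norm_algebraMap, IntermediateField.finrank_fixedField_eq_card, hcard, map_pow]
  set z := Algebra.norm K (⟨(γ : L), hγ⟩ : E)
  have hint : IsIntegral ℤ z := by
    refine IsIntegral.of_pow (n := f) (by rw [← hcard]; exact Nat.card_pos) ?_
    rw [← hnorm]
    exact Algebra.isIntegral_norm K γ.2
  refine ⟨⟨z, hint⟩, RingOfIntegers.ext ?_⟩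
  exact (Algebra.algebraMap_intNorm (A := 𝓞 K) (K := K) (L := L) γ).trans hnorm

/-- A factorisation over a degree one prime gives a relation between its classes. -/
theorem prod_mk0_eq_one {q : ℕ} [hq : Fact q.Prime] {v : HeightOneSpectrum (𝓞 L)} {p : HeightOneSpectrum (𝓞 K)}
    (hvp : v.asIdeal.comap (algebraMap (𝓞 K) (𝓞 L)) = p.asIdeal) (hp : Ideal.absNorm p.asIdeal = q) (hqm : ¬ q ∣ m)
    (e : (L ≃ₐ[ℚ] L) → ℕ) {γ : 𝓞 L}
    (hspan : ∏ σ : L ≃ₐ[ℚ] L, (conjAt v σ).asIdeal ^ e σ = Ideal.span {γ})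
    (hfix : ∀ g : L ≃ₐ[ℚ] L, IsCyclotomicExtension.Rat.galEquivZMod m L g ∈ Subgroup.zpowers (qUnit m hqm) →
      intAut g γ = γ) :
    ∏ σ : L ≃ₐ[ℚ] L, ClassGroup.mk0 (FA.Ext.primeIdeal (conjAt p (σ.restrictNormal K))) ^ e σ = 1 := by
  have hqv : (q : 𝓞 L) ∈ v.asIdeal := by
    rw [← map_natCast (algebraMap (𝓞 K) (𝓞 L)), ← Ideal.mem_comap, hvp, ← hp]
    exact Ideal.absNorm_mem p.asIdeal
  obtain ⟨z, hz⟩ := exists_intNorm_eq_pow hvp hp hqm hfix
  have hf0 : orderOf (q : ZMod m) ≠ 0 := by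
    rw [← orderOf_qUnit hqm]
    exact (orderOf_pos _).ne'
  have h := congrArg (Ideal.relNorm (𝓞 K)) hspan
  rw [map_prod, Ideal.relNorm_singleton, hz, ← Ideal.span_singleton_pow] at h
  rw [Finset.prod_congr rfl fun σ _ => show Ideal.relNorm (𝓞 K) ((conjAt v σ).asIdeal ^ e σ) =
      ((conjAt p (σ.restrictNormal K)).asIdeal ^ e σ) ^ orderOf (q : ZMod m) by
    rw [map_pow, (relNorm_conjAt hvp hq.out hp (absNorm_eq hqv hqm) σ).2, ← pow_mul, mul_comm, pow_mul],
    Finset.prod_pow] at h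
  have h1 := pow_left_injective hf0 h
  have hne : (∏ σ : L ≃ₐ[ℚ] L, (conjAt p (σ.restrictNormal K)).asIdeal ^ e σ) ≠ ⊥ :=
    Finset.prod_ne_zero_iff.mpr fun σ _ => pow_ne_zero _ (conjAt p _).ne_bot
  simp only [← map_pow]
  rw [← map_prod]
  refine Eq.trans (congrArg ClassGroup.mk0 (Subtype.ext ?_))
    ((ClassGroup.mk0_eq_one_iff (mem_nonZeroDivisors_iff_ne_zero.mpr hne)).mpr ⟨⟨z, h1⟩⟩)
  rw [Submonoid.coe_finsetProd]
  rfl

/-- A relation at the degree one primes holds at every class. -/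
theorem prod_classAut_restrict_pow_eq_one (m : ℕ) [NeZero m] (e : (L ≃ₐ[ℚ] L) → ℕ)
    (h : ∀ p : HeightOneSpectrum (𝓞 K), (m : 𝓞 K) ∉ p.asIdeal → (Ideal.absNorm p.asIdeal).Prime →
      ∏ σ : L ≃ₐ[ℚ] L, ClassGroup.mk0 (FA.Ext.primeIdeal (conjAt p (σ.restrictNormal K))) ^ e σ = 1)
    (C : ClassGroup (𝓞 K)) : ∏ σ : L ≃ₐ[ℚ] L, classAut (σ.restrictNormal K)⁻¹ C ^ e σ = 1 := by
  let Θ : ClassGroup (𝓞 K) →* ClassGroup (𝓞 K) :=
    { toFun := fun C => ∏ σ : L ≃ₐ[ℚ] L, classAut (σ.restrictNormal K)⁻¹ C ^ e σ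
      map_one' := Finset.prod_eq_one fun σ _ => by rw [map_one, one_pow]
      map_mul' := fun C D => by
        rw [← Finset.prod_mul_distrib]
        exact Finset.prod_congr rfl fun σ _ => by rw [map_mul, mul_pow] }
  have hfin : {v : HeightOneSpectrum (𝓞 K) | (m : 𝓞 K) ∈ v.asIdeal}.Finite := by
    refine (Ideal.finite_factors (I := Ideal.span {(m : 𝓞 K)}) ?_).subset
      fun v hv => Ideal.dvd_span_singleton.mpr hv
    simp [NeZero.ne m]
  have hle : Subgroup.closure (FA.Catalan.degreeOneClasses {v : HeightOneSpectrum (𝓞 K) | (m : 𝓞 K) ∈ v.asIdeal}) ≤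
      Θ.ker := (Subgroup.closure_le _).mpr fun D ⟨v, hvS, hv, hD⟩ => by
    rw [SetLike.mem_coe, MonoidHom.mem_ker, hD]
    show ∏ σ : L ≃ₐ[ℚ] L, classAut (σ.restrictNormal K)⁻¹ (ClassGroup.mk0 (FA.Ext.primeIdeal v)) ^ e σ = 1
    simp only [classAut_mk0]
    exact h v hvS hv
  rw [FA.Catalan.closure_degreeOneClasses hfin] at hle
  exact MonoidHom.mem_ker.mp (hle (Subgroup.mem_top C))

theorem exists_prime_over (p : HeightOneSpectrum (𝓞 K)) (hpm : (m : 𝓞 K) ∉ p.asIdeal) :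
    (∃ v : HeightOneSpectrum (𝓞 L), v.asIdeal.comap (algebraMap (𝓞 K) (𝓞 L)) = p.asIdeal) ∧
      ¬ Ideal.absNorm p.asIdeal ∣ m := by
  have := p.isMaximal
  obtain ⟨P, hP, hPp⟩ := Ideal.exists_maximal_ideal_liesOver_of_isIntegral (S := 𝓞 L) p.asIdeal
  refine ⟨⟨⟨P, hP.isPrime, fun h => p.ne_bot ?_⟩, hPp.over.symm⟩, fun h => hpm ?_⟩
  · rw [hPp.over, h, Ideal.under_bot]
  · exact p.asIdeal.mem_of_dvd (Nat.cast_dvd_cast h) (Ideal.absNorm_mem p.asIdeal)

/-- **Stickelberger's theorem in a subfield**, `b < m`. -/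
theorem stickelberger_subfield_lt {b : ℕ} (hb : b < m) (C : ClassGroup (𝓞 K)) :
    ∏ σ : L ≃ₐ[ℚ] L, classAut (σ.restrictNormal K)⁻¹ C ^ (b * expo m σ / m) = 1 :=
  prod_classAut_restrict_pow_eq_one m _ (fun p hpm hp => by
    obtain ⟨⟨v, hvp⟩, hqm⟩ := exists_prime_over (L := L) p hpm
    have := Fact.mk hp
    have hqv : ((Ideal.absNorm p.asIdeal : ℕ) : 𝓞 L) ∈ v.asIdeal := by
      rw [← map_natCast (algebraMap (𝓞 K) (𝓞 L)), ← Ideal.mem_comap, hvp]
      exact Ideal.absNorm_mem p.asIdeal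
    obtain ⟨γ, -, hspan, hfix⟩ := exists_generator hqv hqm hb
    exact prod_mk0_eq_one hvp rfl hqm _ hspan hfix) C

variable (m) in
include m in
/-- The norm of a class. -/
theorem prod_classAut_restrict (C : ClassGroup (𝓞 K)) :
    ∏ σ : L ≃ₐ[ℚ] L, classAut (σ.restrictNormal K)⁻¹ C = 1 := by
  have h := prod_classAut_restrict_pow_eq_one m (L := L) (fun _ => 1) (fun p hpm hp => by
    obtain ⟨⟨v, hvp⟩, hqm⟩ := exists_prime_over (L := L) p hpm
    have := Fact.mk hp
    have hqv : ((Ideal.absNorm p.asIdeal : ℕ) : 𝓞 L) ∈ v.asIdeal := by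
      rw [← map_natCast (algebraMap (𝓞 K) (𝓞 L)), ← Ideal.mem_comap, hvp]
      exact Ideal.absNorm_mem p.asIdeal
    refine prod_mk0_eq_one hvp rfl hqm (fun _ => 1)
      (γ := ((Ideal.absNorm p.asIdeal : ℕ) : 𝓞 L) ^ orderOf (Ideal.absNorm p.asIdeal : ZMod m)) ?_
      fun g _ => by rw [map_pow, map_natCast]
    simp only [pow_one]
    exact prod_conjAt_eq_span_pow hqv hqm) C
  simpa only [pow_one] using h

/-- The element `m θ` kills every class of a subfield. -/
theorem prod_classAut_restrict_pow_expo (C : ClassGroup (𝓞 K)) :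
    ∏ σ : L ≃ₐ[ℚ] L, classAut (σ.restrictNormal K)⁻¹ C ^ expo m σ = 1 := by
  rcases Nat.lt_or_ge 1 m with hm | hm
  · have hb := stickelberger_subfield_lt (L := L) (m := m) (b := m - 1) (by omega) C
    have key : ∀ σ : L ≃ₐ[ℚ] L, expo m σ = (m - 1) * expo m σ / m + 1 := fun σ => by
      have ha : expo m σ < m := ZMod.val_lt _
      have ha0 : 0 < expo m σ := Nat.pos_of_ne_zero fun h => by
        have := coprime_expo (m := m) σ
        rw [h, Nat.coprime_zero_left] at this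
        omega
      have e : (m - 1) * expo m σ = (m - expo m σ) + m * (expo m σ - 1) := by
        zify [show 1 ≤ m by omega, ha.le, show 1 ≤ expo m σ from ha0]
        ring
      rw [e, Nat.add_mul_div_left _ _ (by omega), Nat.div_eq_of_lt (by omega)]
      omega
    rw [Finset.prod_congr rfl fun σ _ => congrArg (classAut (σ.restrictNormal K)⁻¹ C ^ ·) (key σ)]
    simp only [pow_succ, Finset.prod_mul_distrib, hb, prod_classAut_restrict m C, mul_one]
  · refine Finset.prod_eq_one fun σ _ => ?_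
    rw [show expo m σ = 0 by have : expo m σ < m := ZMod.val_lt _; omega, pow_zero]

/-- **Stickelberger's theorem for every subfield of `ℚ(ζ_m)`.** -/
theorem stickelberger_subfield (b : ℕ) (C : ClassGroup (𝓞 K)) :
    ∏ σ : L ≃ₐ[ℚ] L, classAut (σ.restrictNormal K)⁻¹ C ^ (b * expo m σ / m) = 1 := by
  have h : ∀ a, b * a / m = b / m * a + b % m * a / m := fun a => by
    conv_lhs => rw [← Nat.div_add_mod b m, add_mul, mul_assoc, Nat.mul_add_div (NeZero.pos m)]
  simp only [h, pow_add, Finset.prod_mul_distrib, mul_comm (b / m), pow_mul, Finset.prod_pow,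
    prod_classAut_restrict_pow_expo (m := m) C, stickelberger_subfield_lt (Nat.mod_lt b (NeZero.pos m)) C, one_pow,
    mul_one]

end FA.GaussValuation
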