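import Fermat.Agent.GaussValuation.GaussSum
import Fermat.Agent.GaussValuation.Conjugates

/-!
# The ideals `∏ (σ⁻¹ v) ^ ⌊b a(σ)/m⌋` are principal

For a prime `v` of `ℚ(ζ_m)` over `q ∤ m` and `b < m` the product of the conjugates with these exponents is generated
by a product of Jacobi sums over the residue field, which the decomposition group fixes.
-/

set_option autoImplicit false
set_option linter.unusedSectionVars false

noncomputable section

open NumberField IsDedekindDomain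
open scoped Classical

namespace FA.GaussValuation

open FA.IwasawaStructure UniqueFactorizationMonoid

theorem jacobiSum_pow_charP {F R : Type*} [Field F] [Fintype F] [CommRing R] {q : ℕ} [hq : Fact q.Prime]
    [CharP F q] (χ φ : MulChar F R) (i : ℕ) : jacobiSum (χ ^ q ^ i) (φ ^ q ^ i) = jacobiSum χ φ := by
  induction i with
  | zero => rw [pow_zero, pow_one, pow_one]
  | succ i ih =>
    rw [← ih, pow_succ, pow_mul, pow_mul]
    refine Fintype.sum_bijective (fun x : F => x ^ q) (Finite.injective_iff_bijective.mp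
      (frobenius_inj F q)) _ _ fun x => ?_
    rw [MulChar.pow_apply' _ hq.out.ne_zero, MulChar.pow_apply' _ hq.out.ne_zero, ← map_pow, ← map_pow,
      sub_pow_char, one_pow]

/-- The order along an extension. -/
theorem ordAt_algebraMap {R S : Type*} [CommRing R] [IsDomain R] [IsDedekindDomain R] [CommRing S] [IsDomain S]
    [IsDedekindDomain S] [Algebra R S] [Module.IsTorsionFree R S] {P : Ideal R} [hP : P.IsPrime] (hP0 : P ≠ ⊥)
    {W : Ideal S} (hW : W.comap (algebraMap R S) = P) {x : R} (hx : x ≠ 0) :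
    ordAt W (algebraMap R S x) = ordAt P x * (normalizedFactors (P.map (algebraMap R S))).count W := by
  obtain ⟨n, J, hJ, hxJ⟩ := WfDvdMonoid.max_power_factor (show Ideal.span {x} ≠ 0 by simpa using hx)
    (Ideal.prime_of_isPrime hP0 hP).irreducible
  have hJ0 : J ≠ 0 := fun h => by
    rw [h, mul_zero] at hxJ
    exact hx (by simpa using hxJ)
  have hirr : Irreducible P := (Ideal.prime_of_isPrime hP0 hP).irreducible
  have hn : ordAt P x = n := by
    rw [ordAt, hxJ, normalizedFactors_mul (pow_ne_zero n hP0) hJ0, Multiset.count_add,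
      hirr.normalizedFactors_pow, normalize_eq, Multiset.count_replicate_self,
      Multiset.count_eq_zero.mpr fun h => hJ (dvd_of_mem_normalizedFactors h), add_zero]
  have hJW : (normalizedFactors (J.map (algebraMap R S))).count W = 0 := Multiset.count_eq_zero.mpr fun h => by
    refine hJ (Ideal.dvd_iff_le.mpr ?_)
    rw [← hW, ← Ideal.map_le_iff_le_comap]
    exact Ideal.le_of_dvd (dvd_of_mem_normalizedFactors h)
  rw [ordAt, show Ideal.span {algebraMap R S x} = (Ideal.span {x}).map (algebraMap R S) by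
      rw [Ideal.map_span, Set.image_singleton], hxJ, Ideal.map_mul, Ideal.map_pow,
    normalizedFactors_mul (pow_ne_zero n (Ideal.map_ne_bot_of_ne_bot hP0)) (Ideal.map_ne_bot_of_ne_bot hJ0),
    Multiset.count_add, normalizedFactors_pow, Multiset.count_nsmul, hJW, add_zero, hn]

variable {m : ℕ} [NeZero m] {L : Type*} [Field L] [NumberField L] [IsCyclotomicExtension {m} ℚ L]
variable {q : ℕ} [hq : Fact q.Prime] {v : HeightOneSpectrum (𝓞 L)}

theorem count_prod_pow {α : Type*} (s : Finset α) (w : α → HeightOneSpectrum (𝓞 L)) (e : α → ℕ)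
    (W : Ideal (𝓞 L)) :
    (normalizedFactors (∏ i ∈ s, (w i).asIdeal ^ e i)).count W =
      ∑ i ∈ s, if (w i).asIdeal = W then e i else 0 := by
  induction s using Finset.induction_on with
  | empty => rw [Finset.prod_empty, normalizedFactors_one, Finset.sum_empty, Multiset.count_zero]
  | insert a s ha ih =>
    rw [Finset.prod_insert ha, Finset.sum_insert ha, normalizedFactors_mul (pow_ne_zero _ (w a).ne_bot)
      (Finset.prod_ne_zero_iff.mpr fun i _ => pow_ne_zero _ (w i).ne_bot), Multiset.count_add,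
      (w a).irreducible.normalizedFactors_pow, normalize_eq, Multiset.count_replicate, ih]

/-- An element supported over `q` with the given orders generates the product. -/
theorem prod_conjAt_pow_eq_span (hqv : (q : 𝓞 L) ∈ v.asIdeal) (hqm : ¬ q ∣ m) (e : ℕ → ℕ) {x : 𝓞 L} (hx : x ≠ 0)
    (hsupp : ∀ w : HeightOneSpectrum (𝓞 L), x ∈ w.asIdeal → (q : 𝓞 L) ∈ w.asIdeal)
    (hord : ∀ τ : L ≃ₐ[ℚ] L, ordAt v.asIdeal (intAut τ x) =
      ∑ i ∈ Finset.range (orderOf (q : ZMod m)), e (q ^ i * expo m τ % m)) :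
    ∏ σ : L ≃ₐ[ℚ] L, (conjAt v σ).asIdeal ^ e (expo m σ) = Ideal.span {x} := by
  have hne : (∏ σ : L ≃ₐ[ℚ] L, (conjAt v σ).asIdeal ^ e (expo m σ)) ≠ 0 :=
    Finset.prod_ne_zero_iff.mpr fun σ _ => pow_ne_zero _ (conjAt v σ).ne_bot
  refine associated_iff_eq.mp ((associated_iff_normalizedFactors_eq_normalizedFactors hne
    (by simpa using hx)).mpr (Multiset.ext.mpr fun W => ?_))
  rw [count_prod_pow]
  by_cases h : ∃ τ, (conjAt v τ).asIdeal = W
  · obtain ⟨τ, rfl⟩ := h
    rw [← ordAt, ordAt_conjAt τ hx, hord, ← sum_fibre hqv hqm τ e]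
    exact Finset.sum_congr rfl fun σ _ => if_congr HeightOneSpectrum.ext_iff.symm rfl rfl
  · rw [Finset.sum_eq_zero fun σ _ => if_neg fun hσ => h ⟨σ, hσ⟩, eq_comm, Multiset.count_eq_zero]
    intro hW
    have hprime := prime_of_normalized_factor W hW
    set w : HeightOneSpectrum (𝓞 L) := ⟨W, Ideal.isPrime_of_prime hprime, hprime.ne_zero⟩
    obtain ⟨σ, hσ⟩ := exists_conjAt_eq m hqv (hsupp w (Ideal.dvd_span_singleton.mp
      (dvd_of_mem_normalizedFactors hW)))
    exact h ⟨σ, (congrArg HeightOneSpectrum.asIdeal hσ).symm⟩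

/-- The product of all conjugates. -/
theorem prod_conjAt_eq_span_pow (hqv : (q : 𝓞 L) ∈ v.asIdeal) (hqm : ¬ q ∣ m) :
    ∏ σ : L ≃ₐ[ℚ] L, (conjAt v σ).asIdeal = Ideal.span {(q : 𝓞 L) ^ orderOf (q : ZMod m)} := by
  have hq0 : (q : 𝓞 L) ≠ 0 := Nat.cast_ne_zero.mpr hq.out.ne_zero
  refine Eq.trans (Finset.prod_congr rfl fun σ _ => (pow_one _).symm)
    (prod_conjAt_pow_eq_span hqv hqm (fun _ => 1) (pow_ne_zero _ hq0)
      (fun w hw => w.isPrime.mem_of_pow_mem _ hw) fun τ => ?_)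
  rw [map_pow, map_natCast, ordAt_pow v.isPrime hq0, ordAt_natCast_eq_one hqv hqm, Finset.sum_const,
    Finset.card_range, smul_eq_mul]

theorem mul_floor_add {b x m : ℕ} : b * x = m * (b * x / m) + b * x % m := (Nat.div_add_mod _ _).symm

/-- **The factorisation**: the products of Jacobi sums of the inverse residue character generate the ideals and are
fixed by the decomposition group. -/
theorem prod_jacobiSum_spec [Fintype (𝓞 L ⧸ v.asIdeal)] (hqv : (q : 𝓞 L) ∈ v.asIdeal) (hqm : ¬ q ∣ m) {b : ℕ}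
    (hb : b < m) {r : ℕ} (hr : Fintype.card (𝓞 L ⧸ v.asIdeal) - 1 = m * r) {χ : MulChar (𝓞 L ⧸ v.asIdeal) (𝓞 L)}
    (hχm : χ ^ m = 1) (hχ : ∀ x, Ideal.Quotient.mk v.asIdeal (χ x) = x ^ r) :
    (∏ j ∈ Finset.Ico 1 b, jacobiSum χ⁻¹ (χ⁻¹ ^ j)) ≠ 0 ∧
      ∏ σ : L ≃ₐ[ℚ] L, (conjAt v σ).asIdeal ^ (b * expo m σ / m) =
        Ideal.span {∏ j ∈ Finset.Ico 1 b, jacobiSum χ⁻¹ (χ⁻¹ ^ j)} ∧
      ∀ g : L ≃ₐ[ℚ] L, IsCyclotomicExtension.Rat.galEquivZMod m L g ∈ Subgroup.zpowers (qUnit m hqm) →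
        intAut g (∏ j ∈ Finset.Ico 1 b, jacobiSum χ⁻¹ (χ⁻¹ ^ j)) = ∏ j ∈ Finset.Ico 1 b, jacobiSum χ⁻¹ (χ⁻¹ ^ j) := by
  have := v.isMaximal
  let := Ideal.Quotient.field v.asIdeal
  set f := orderOf (q : ZMod m) with hfdef
  have hcard : Fintype.card (𝓞 L ⧸ v.asIdeal) = q ^ f := by
    rw [← absNorm_eq hqv hqm, Ideal.absNorm_apply, Submodule.cardQuot_apply, Nat.card_eq_fintype_card]
  have : CharP (𝓞 L ⧸ v.asIdeal) q := by
    refine (CharP.charP_iff_prime_eq_zero hq.out).mpr ?_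
    rw [← map_natCast (Ideal.Quotient.mk v.asIdeal), Ideal.Quotient.eq_zero_iff_mem]
    exact hqv
  let := ZMod.algebra (𝓞 L ⧸ v.asIdeal) q
  set N := Fintype.card (𝓞 L ⧸ v.asIdeal) - 1 with hNdef
  have hN0 : N ≠ 0 := by
    have := Fintype.one_lt_card (α := 𝓞 L ⧸ v.asIdeal)
    omega
  have hr0 : 0 < r := Nat.pos_of_ne_zero fun h => hN0 (by rw [hr, h, mul_zero])
  have hvm := notMem_of_not_dvd hqv hqm
  set η := χ⁻¹ with hη
  have hηm : η ^ m = 1 := by rw [hη, inv_pow, hχm, inv_one]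
  set γ := ∏ j ∈ Finset.Ico 1 b, jacobiSum η (η ^ j) with hγ
  have hσ : ∀ g : L ≃ₐ[ℚ] L, intAut g γ =
      ∏ j ∈ Finset.Ico 1 b, jacobiSum (η ^ expo m g) ((η ^ expo m g) ^ j) := fun g => by
    have hcomp : η.ringHomComp (intAut g).toRingHom = η ^ expo m g := MulChar.ext fun x => by
      rw [MulChar.ringHomComp_apply, MulChar.pow_apply_coe]
      refine intAut_of_pow_eq_one g ?_
      rw [← MulChar.pow_apply_coe, hηm, MulChar.one_apply_coe]
    rw [hγ, map_prod]
    refine Finset.prod_congr rfl fun j _ => ?_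
    show (intAut g).toRingHom (jacobiSum η (η ^ j)) = _
    rw [← jacobiSum_ringHomComp, ← MulChar.ringHomComp_pow, hcomp]
  -- a field containing the roots of unity of orders `N` and `q`
  obtain ⟨n, hn'⟩ : ∃ n, n = N * q := ⟨_, rfl⟩
  have : NeZero n := ⟨hn' ▸ mul_ne_zero hN0 hq.out.ne_zero⟩
  have : NeZero N := ⟨hN0⟩
  let M := CyclotomicField n L
  have hξ := (IsCyclotomicExtension.zeta_spec n L M).toInteger_isPrimitiveRoot
  obtain ⟨z, hz⟩ : ∃ z : 𝓞 M, IsPrimitiveRoot z N := ⟨_, hξ.pow (NeZero.pos _) (hn'.trans (mul_comm N q))⟩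
  obtain ⟨ζ, hζ⟩ : ∃ ζ : 𝓞 M, IsPrimitiveRoot ζ q := ⟨_, hξ.pow (NeZero.pos _) hn'⟩
  set φ := algebraMap (𝓞 L) (𝓞 M)
  have hφinj : Function.Injective φ := FaithfulSMul.algebraMap_injective _ _
  -- a prime over a given one, with the residue map
  have key : ∀ (W : Ideal (𝓞 M)), W.IsPrime → ∀ hW : W.comap φ = v.asIdeal,
      ∃ η₀ : MulChar (𝓞 L ⧸ v.asIdeal) (𝓞 M),
        (∀ x, Ideal.Quotient.mk W (η₀ x) = Ideal.quotientMap W φ hW.ge x⁻¹) ∧
        η.ringHomComp φ = η₀ ^ r := by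
    intro W hWp hW
    set ι := Ideal.quotientMap W φ hW.ge
    have hNW : (N : 𝓞 M) ∉ W := fun h => by
      rw [← map_natCast φ, ← Ideal.mem_comap, hW] at h
      rw [← Ideal.Quotient.eq_zero_iff_mem, map_natCast, hNdef, Nat.cast_sub Fintype.card_pos, hcard, Nat.cast_pow,
        CharP.cast_eq_zero, zero_pow, Nat.cast_one, zero_sub, neg_eq_zero] at h
      · exact one_ne_zero h
      · rintro hf0
        rw [hf0, pow_zero] at hcard
        exact absurd hcard (Fintype.one_lt_card (α := 𝓞 L ⧸ v.asIdeal)).ne'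
    obtain ⟨ω, hωN, hω⟩ := exists_residueCharacter hNW hz ι (r := 1) (by rw [mul_one])
    have hω' : ∀ x, Ideal.Quotient.mk W (ω⁻¹ x) = ι x⁻¹ := fun x => by rw [MulChar.inv_apply', hω, pow_one]
    refine ⟨ω⁻¹, hω', MulChar.ext fun x => eq_of_mk_eq hNW ?_ ?_ ?_⟩
    · rw [MulChar.ringHomComp_apply, ← map_pow, hr, pow_mul, ← MulChar.pow_apply_coe, hηm,
        MulChar.one_apply_coe, one_pow, map_one]
    · rw [← MulChar.pow_apply_coe, ← pow_mul, mul_comm, pow_mul, inv_pow, hωN, inv_one, one_pow,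
        MulChar.one_apply_coe]
    · rw [MulChar.ringHomComp_apply, MulChar.pow_apply_coe, map_pow, hω', ← map_pow, inv_pow, hη,
        MulChar.inv_apply', ← Ideal.quotientMap_mk (H := hW.ge), hχ, inv_pow]
  obtain ⟨Q₀, hQ₀, hQ₀v⟩ := Ideal.exists_maximal_ideal_liesOver_of_isIntegral (S := 𝓞 M) v.asIdeal
  obtain ⟨η₀, hη₀, hcomp⟩ := key Q₀ hQ₀.isPrime hQ₀v.over.symm
  set ι := Ideal.quotientMap Q₀ φ hQ₀v.over.symm.ge
  have hn := natCast_card_sub_one_notMem ι hη₀ hcard
  have hg0 := gaussSum_pow_ne_zero ι hη₀ hζ hcard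
  have hmd : ∀ {k}, η₀ ^ k = 1 ↔ N ∣ k := fun {k} => pow_eq_one_iff_dvd ι hη₀ hn
  -- Gauss sums and the conjugates of `γ`
  have hgauss : ∀ g : L ≃ₐ[ℚ] L, 0 < b → gaussSum (η₀ ^ (r * expo m g)) (traceChar hζ.pow_eq_one) ^ b =
      gaussSum (η₀ ^ (r * expo m g * b)) (traceChar hζ.pow_eq_one) * φ (intAut g γ) := fun g hb0 => by
    have hlt : b < orderOf (η₀ ^ (r * expo m g)) := by
      refine lt_of_lt_of_le hb (Nat.le_of_dvd (orderOf_pos _) ?_)
      have h := pow_orderOf_eq_one (η₀ ^ (r * expo m g))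
      rw [← pow_mul, hmd, hr, mul_comm m r, mul_assoc] at h
      exact (coprime_expo g).symm.dvd_of_dvd_mul_left ((Nat.mul_dvd_mul_iff_left hr0).mp h)
    rw [gaussSum_pow_eq_prod_jacobiSum_aux _ _ hb0 hlt, ← pow_mul, hσ, map_prod]
    congr 1
    refine Finset.prod_congr rfl fun j _ => ?_
    rw [← jacobiSum_ringHomComp]
    simp only [← MulChar.ringHomComp_pow, hcomp, ← pow_mul, mul_assoc]
  have hid : intAut (1 : L ≃ₐ[ℚ] L) γ = γ := RingOfIntegers.ext rfl
  have hγ0 : γ ≠ 0 := fun h => by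
    rcases Nat.eq_zero_or_pos b with rfl | hb0
    · simp [hγ] at h
    · have h1 := hgauss 1 hb0
      rw [hid, h, map_zero, mul_zero] at h1
      exact pow_ne_zero _ (hg0 _) h1
  refine ⟨hγ0, prod_conjAt_pow_eq_span hqv hqm (fun a => b * a / m) hγ0 ?_ ?_, ?_⟩
  · intro w hw
    rcases Nat.eq_zero_or_pos b with rfl | hb0
    · simp only [hγ, Finset.Ico_eq_empty_of_le (Nat.zero_le 1), Finset.prod_empty] at hw
      exact absurd ((Ideal.eq_top_iff_one _).mpr hw) w.isPrime.ne_top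
    have := w.isMaximal
    obtain ⟨W, hW, hWw⟩ := Ideal.exists_maximal_ideal_liesOver_of_isIntegral (S := 𝓞 M) w.asIdeal
    have hγW : φ γ ∈ W := by rwa [← Ideal.mem_comap, ← Ideal.under_def, ← hWw.over]
    have h1 := hgauss 1 hb0
    rw [hid] at h1
    have hg := hW.isPrime.mem_of_pow_mem b (by rw [h1]; exact W.mul_mem_left _ hγW)
    have hne : η₀ ^ (r * expo m (1 : L ≃ₐ[ℚ] L)) ≠ 1 := fun h => by
      rw [hmd, hr, mul_comm m r] at h
      have h2 := Nat.eq_one_of_dvd_coprimes (coprime_expo (m := m) 1) ((Nat.mul_dvd_mul_iff_left hr0).mp h) dvd_rfl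
      omega
    have hprod := gaussSum_mul_gaussSum_eq_card hne (AddChar.IsPrimitive.of_ne_one
      (traceChar_ne_one (F := 𝓞 L ⧸ v.asIdeal) hζ))
    have hQ : ((Fintype.card (𝓞 L ⧸ v.asIdeal) : ℕ) : 𝓞 M) ∈ W := hprod ▸ W.mul_mem_right _ hg
    rw [hcard, Nat.cast_pow] at hQ
    have := hW.isPrime.mem_of_pow_mem _ hQ
    rwa [← map_natCast φ, ← Ideal.mem_comap, ← Ideal.under_def, ← hWw.over] at this
  · intro τ
    have hvne := v.ne_bot
    have := v.isPrime
    set E := (q - 1) * ordAt Q₀ (ζ - 1) with hE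
    have hcount : (normalizedFactors (v.asIdeal.map φ)).count Q₀ = E := by
      have h := ordAt_algebraMap (S := 𝓞 M) hvne hQ₀v.over.symm (x := (q : 𝓞 L))
        (Nat.cast_ne_zero.mpr hq.out.ne_zero)
      rw [map_natCast, ordAt_natCast_prime hQ₀.isPrime hζ, ordAt_natCast_eq_one hqv hqm, one_mul] at h
      exact h.symm
    have hmem : ζ - 1 ∈ Q₀ := sub_one_mem hQ₀.isPrime hζ (natCast_mem ι hη₀)
    have hQ0 : Q₀ ≠ ⊥ := fun h => sub_one_ne_zero hζ (by rwa [h, Ideal.mem_bot] at hmem)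
    have hE0 : 0 < E := by
      refine Nat.mul_pos (Nat.sub_pos_of_lt hq.out.one_lt) ?_
      have := hQ₀.isPrime
      exact (le_ordAt_iff hQ0 (sub_one_ne_zero hζ)).mpr (by rwa [pow_one])
    rcases Nat.eq_zero_or_pos b with rfl | hb0
    · simp [hγ, ordAt_one v.isPrime]
    set a := expo m τ with ha
    have ham : a < m := ZMod.val_lt _
    have hσ0 : intAut τ γ ≠ 0 := fun h => hγ0 ((intAut τ).injective (h.trans (map_zero _).symm))
    set V := gaussOrd Q₀ hζ η₀ with hV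
    have hval : ∀ c, c < m → m * V (r * c) = E * ∑ i ∈ Finset.range f, q ^ i * c % m := fun c hc => by
      have h := mul_gaussOrd_eq ι hη₀ hζ hcard (k := r * c) (by
        rw [← hNdef, hr, mul_comm m r]
        exact Nat.mul_lt_mul_of_pos_left hc hr0)
      refine Nat.eq_of_mul_eq_mul_left hr0 ?_
      rw [← hV, ← hNdef, hr, ← hE, orbitSum] at h
      calc r * (m * V (r * c)) = m * r * V (r * c) := by ring
        _ = _ := h
        _ = E * (r * ∑ i ∈ Finset.range f, q ^ i * c % m) := by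
          rw [Finset.mul_sum (a := r)]
          exact congrArg (E * ·) (Finset.sum_congr rfl fun i _ => by
            rw [mul_comm m r, mul_left_comm, Nat.mul_mod_mul_left])
        _ = _ := by ring
    have hper : V (r * a * b) = V (r * (a * b % m)) := by
      refine gaussOrd_congr hζ ?_
      have h : r * a * b = r * (a * b % m) + N * (a * b / m) := by
        rw [hr]
        linear_combination r * (Nat.mod_add_div (a * b) m).symm
      rw [h, pow_add, (hmd.mpr (dvd_mul_right N _)), mul_one]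
    have h1 := congrArg (ordAt Q₀) (hgauss τ hb0)
    rw [ordAt_pow hQ₀.isPrime (hg0 _), ordAt_mul (hg0 _) (fun h => hσ0 (hφinj (h.trans (map_zero φ).symm))),
      ordAt_algebraMap hvne hQ₀v.over.symm hσ0, hcount, ← ha] at h1
    change b * V (r * a) = V (r * a * b) + _ at h1
    rw [hper] at h1
    have h2 := hval a ham
    have h3 := hval (a * b % m) (Nat.mod_lt _ (NeZero.pos m))
    have h4 : b * ∑ i ∈ Finset.range f, q ^ i * a % m =
        m * (∑ i ∈ Finset.range f, b * (q ^ i * a % m) / m) + ∑ i ∈ Finset.range f, q ^ i * (a * b % m) % m := by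
      rw [Finset.mul_sum, Finset.mul_sum, ← Finset.sum_add_distrib]
      refine Finset.sum_congr rfl fun i _ => ?_
      rw [show q ^ i * (a * b % m) % m = b * (q ^ i * a % m) % m by
        rw [Nat.mul_mod_mod, Nat.mul_mod_mod]; ring_nf]
      exact mul_floor_add
    refine Nat.eq_of_mul_eq_mul_left (Nat.mul_pos (NeZero.pos m) hE0) ?_
    linear_combination E * h4 - m * h1 + b * h2 - h3
  · intro g hg
    obtain ⟨i, hi⟩ := Submonoid.mem_powers_iff _ _ |>.mp (mem_powers_iff_mem_zpowers.mpr hg)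
    have he : η ^ expo m g = η ^ q ^ i := by
      rw [expo, ← hi, Units.val_pow_eq_pow_val, qUnit, ZMod.coe_unitOfCoprime, ← Nat.cast_pow, ZMod.val_natCast,
        ← pow_eq_pow_mod _ hηm]
    rw [hσ, he, hγ]
    refine Finset.prod_congr rfl fun j _ => ?_
    rw [← pow_mul, mul_comm, pow_mul, jacobiSum_pow_charP]

/-- The factorisation, without naming the generator. -/
theorem exists_generator (hqv : (q : 𝓞 L) ∈ v.asIdeal) (hqm : ¬ q ∣ m) {b : ℕ} (hb : b < m) :
    ∃ γ : 𝓞 L, γ ≠ 0 ∧ ∏ σ : L ≃ₐ[ℚ] L, (conjAt v σ).asIdeal ^ (b * expo m σ / m) = Ideal.span {γ} ∧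
      ∀ g : L ≃ₐ[ℚ] L, IsCyclotomicExtension.Rat.galEquivZMod m L g ∈ Subgroup.zpowers (qUnit m hqm) →
        intAut g γ = γ := by
  have := v.isMaximal
  have : Finite (𝓞 L ⧸ v.asIdeal) := Ideal.finiteQuotientOfFreeOfNeBot _ v.ne_bot
  let := Fintype.ofFinite (𝓞 L ⧸ v.asIdeal)
  let := Ideal.Quotient.field v.asIdeal
  have hcard : Fintype.card (𝓞 L ⧸ v.asIdeal) = q ^ orderOf (q : ZMod m) := by
    rw [← absNorm_eq hqv hqm, Ideal.absNorm_apply, Submodule.cardQuot_apply, Nat.card_eq_fintype_card]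
  obtain ⟨r, hr⟩ : m ∣ Fintype.card (𝓞 L ⧸ v.asIdeal) - 1 := by
    rw [← ZMod.natCast_eq_zero_iff, Nat.cast_sub Fintype.card_pos, hcard, Nat.cast_pow,
      pow_orderOf_eq_one, Nat.cast_one, sub_self]
  obtain ⟨χ, hχm, hχ⟩ := exists_residueCharacter (notMem_of_not_dvd hqv hqm)
    (IsCyclotomicExtension.zeta_spec m ℚ L).toInteger_isPrimitiveRoot (RingHom.id (𝓞 L ⧸ v.asIdeal)) hr
  exact ⟨_, prod_jacobiSum_spec hqv hqm hb hr hχm fun x => hχ x⟩

end FA.GaussValuation
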