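import Fermat.Agent.GaussValuation.Basic
import Mathlib.FieldTheory.Finite.Trace
import Mathlib.NumberTheory.GaussSum
import Mathlib.NumberTheory.JacobiSum.Basic
import Mathlib.NumberTheory.LegendreSymbol.AddCharacter

/-!
# The order of a Gauss sum at a prime above the characteristic

For a finite field `F` with `q ^ f` elements, a character `χ` of residues `x ↦ x⁻¹` at a prime `P` above `q`, and
`k < q ^ f - 1`, the order of `g(χ ^ k)` at `P` is the sum of the digits of `k` in base `q` times that of `ζ_q - 1`.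
-/

set_option autoImplicit false
set_option linter.unusedSectionVars false

noncomputable section

open scoped Classical

namespace FA.GaussValuation

variable {R : Type*} [CommRing R] [IsDomain R] [IsDedekindDomain R]
variable {q : ℕ} [hq : Fact q.Prime] {F : Type*} [Field F] [Fintype F] [Algebra (ZMod q) F]

/-- The additive character `x ↦ ζ ^ Tr(x)`. -/
def traceChar {ζ : R} (hζ : ζ ^ q = 1) : AddChar F R :=
  (AddChar.zmodChar q hζ).compAddMonoidHom (Algebra.trace (ZMod q) F).toAddMonoidHom

theorem traceChar_apply {ζ : R} (hζ : ζ ^ q = 1) (x : F) :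
    traceChar hζ x = ζ ^ (Algebra.trace (ZMod q) F x).val := rfl

theorem trace_pow_char (x : F) : Algebra.trace (ZMod q) F (x ^ q) = Algebra.trace (ZMod q) F x := by
  have h := Algebra.trace_eq_of_algEquiv (FiniteField.frobeniusAlgEquivOfAlgebraic (ZMod q) F) x
  rwa [FiniteField.coe_frobeniusAlgEquivOfAlgebraic, ZMod.card] at h

theorem bijective_pow_char : Function.Bijective fun x : F => x ^ q := by
  have h := (FiniteField.frobeniusAlgEquivOfAlgebraic (ZMod q) F).bijective
  rwa [FiniteField.coe_frobeniusAlgEquivOfAlgebraic, ZMod.card] at h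

/-- `g(χ ^ q) = g(χ)`. -/
theorem gaussSum_pow_char {ζ : R} (hζ : ζ ^ q = 1) (χ : MulChar F R) :
    gaussSum (χ ^ q) (traceChar hζ) = gaussSum χ (traceChar hζ) := by
  refine Fintype.sum_bijective (fun x : F => x ^ q) bijective_pow_char _ _ fun x => ?_
  rw [MulChar.pow_apply' χ hq.out.ne_zero, traceChar_apply, traceChar_apply, trace_pow_char, map_pow]

theorem traceChar_ne_one {ζ : R} (hζ : IsPrimitiveRoot ζ q) :
    (traceChar hζ.pow_eq_one : AddChar F R) ≠ 1 := by
  obtain ⟨x, hx⟩ := Algebra.trace_surjective (ZMod q) F 1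
  refine AddChar.ne_one_iff.mpr ⟨x, ?_⟩
  rw [traceChar_apply, hx, ZMod.val_one, pow_one]
  exact hζ.ne_one hq.out.one_lt

section valuation

variable [CharZero R] {P : Ideal R} [hP : P.IsPrime] (ι : F →+* R ⧸ P) {χ : MulChar F R}
variable (hχ : ∀ x, Ideal.Quotient.mk P (χ x) = ι x⁻¹) {ζ : R} (hζ : IsPrimitiveRoot ζ q)

include hχ in
theorem pow_eq_one_iff_dvd {k : ℕ} (hn : ((Fintype.card F - 1 : ℕ) : R) ∉ P) :
    χ ^ k = 1 ↔ Fintype.card F - 1 ∣ k := by
  constructor
  · intro h
    refine (FiniteField.forall_pow_eq_one_iff F k).mp fun u => ?_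
    have h1 := congrArg (Ideal.Quotient.mk P) (DFunLike.congr_fun h (u : F))
    rw [MulChar.pow_apply_coe, MulChar.one_apply_coe, map_pow, hχ, ← map_pow, map_one] at h1
    have h2 : ((u : F)⁻¹) ^ k = 1 := ι.injective (h1.trans (map_one ι).symm)
    rw [inv_pow, inv_eq_one] at h2
    exact Units.ext (by rw [Units.val_pow_eq_pow_val, h2, Units.val_one])
  · rintro ⟨c, rfl⟩
    refine MulChar.ext fun u => ?_
    rw [MulChar.pow_apply_coe, MulChar.one_apply_coe, pow_mul, ← map_pow, ← Units.val_pow_eq_pow_val,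
      ← Fintype.card_units, pow_card_eq_one, Units.val_one, map_one, one_pow]

include hχ in
theorem natCast_mem : (q : R) ∈ P := by
  have : CharP F q := charP_of_injective_algebraMap (algebraMap (ZMod q) F).injective q
  rw [← Ideal.Quotient.eq_zero_iff_mem, map_natCast, ← map_natCast ι, CharP.cast_eq_zero, map_zero]

variable {f : ℕ} (hf : Fintype.card F = q ^ f)

include hf in
theorem ne_zero_of_card : f ≠ 0 := by
  rintro rfl
  rw [pow_zero] at hf
  exact absurd hf (Fintype.one_lt_card (α := F)).ne'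

include hχ hf in
theorem natCast_card_sub_one_notMem : ((Fintype.card F - 1 : ℕ) : R) ∉ P := by
  intro h
  rw [← Ideal.Quotient.eq_zero_iff_mem, map_natCast, Nat.cast_sub Fintype.card_pos, hf, Nat.cast_pow,
    ← map_natCast (Ideal.Quotient.mk P) q, Ideal.Quotient.eq_zero_iff_mem.mpr (natCast_mem ι hχ),
    Nat.cast_one, zero_pow (ne_zero_of_card hf), zero_sub, neg_eq_zero] at h
  exact one_ne_zero h

include hχ hζ hf in
/-- The order of `g(χ)` is at most that of `ζ - 1`. -/
theorem ordAt_gaussSum_one_le : ordAt P (gaussSum χ (traceChar hζ.pow_eq_one)) ≤ ordAt P (ζ - 1) := by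
  have hn := natCast_card_sub_one_notMem ι hχ hf
  by_cases hN : Fintype.card F - 1 = 1
  · rw [show χ = 1 by simpa using (pow_eq_one_iff_dvd ι hχ (k := 1) hn).mpr (by rw [hN]),
      gaussSum_one_left (traceChar_ne_one hζ), ordAt_of_isUnit hP isUnit_one.neg]
    exact Nat.zero_le _
  have hne : χ ≠ 1 := fun h => hN (Nat.dvd_one.mp ((pow_eq_one_iff_dvd ι hχ hn).mp (by rw [pow_one, h])))
  set tr : F → ℕ := fun x => (Algebra.trace (ZMod q) F x).val with htr
  set u := ∑ x : F, χ x * ∑ t ∈ Finset.range (tr x), ζ ^ t with hu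
  have hg : gaussSum χ (traceChar hζ.pow_eq_one) = u * (ζ - 1) := by
    rw [hu, Finset.sum_mul, Finset.sum_congr rfl fun x (_ : x ∈ Finset.univ) =>
      show (χ x * ∑ t ∈ Finset.range (tr x), ζ ^ t) * (ζ - 1) = χ x * ζ ^ tr x - χ x by
        rw [mul_assoc, geom_sum_mul, mul_sub, mul_one],
      Finset.sum_sub_distrib, MulChar.sum_eq_zero_of_ne_one hne, sub_zero]
    rfl
  have hζP : Ideal.Quotient.mk P ζ = 1 :=
    sub_eq_zero.mp (by
      rw [← map_one (Ideal.Quotient.mk P), ← map_sub]
      exact Ideal.Quotient.eq_zero_iff_mem.mpr (sub_one_mem hP hζ (natCast_mem ι hχ)))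
  have hu1 : Ideal.Quotient.mk P u = -1 := by
    have hfin : Module.finrank (ZMod q) F = f := by
      have h := Module.card_eq_pow_finrank (K := ZMod q) (V := F)
      rw [ZMod.card, hf] at h
      exact (Nat.pow_right_injective hq.out.two_le h).symm
    calc Ideal.Quotient.mk P u
        = ∑ x : F, ι x⁻¹ * (tr x : R ⧸ P) := by
          rw [hu, map_sum]
          exact Finset.sum_congr rfl fun x _ => by
            simp [hχ, map_sum, hζP]
      _ = ι (∑ x : F, x⁻¹ * (tr x : F)) := by simp only [map_sum, map_mul, map_natCast]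
      _ = ι (∑ i ∈ Finset.range f, ∑ x : F, x⁻¹ * x ^ q ^ i) := by
          rw [Finset.sum_comm]
          congr 1
          refine Finset.sum_congr rfl fun x _ => ?_
          rw [← Finset.mul_sum, ← map_natCast (algebraMap (ZMod q) F), htr, ZMod.natCast_zmod_val,
            FiniteField.algebraMap_trace_eq_sum_pow, hfin, Nat.card_zmod]
      _ = -1 := by
          rw [Finset.sum_eq_single_of_mem 0 (Finset.mem_range.mpr (Nat.pos_of_ne_zero (ne_zero_of_card hf)))]
          · simp only [pow_zero, pow_one]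
            rw [← Finset.add_sum_erase _ _ (Finset.mem_univ (0 : F)), inv_zero, zero_mul, zero_add,
              Finset.sum_congr rfl fun x hx => inv_mul_cancel₀ (Finset.ne_of_mem_erase hx)]
            rw [Finset.sum_const, nsmul_one, Finset.card_erase_of_mem (Finset.mem_univ _), Finset.card_univ,
              Nat.cast_sub Fintype.card_pos, FiniteField.cast_card_eq_zero, Nat.cast_one, zero_sub, map_neg,
              map_one]
          · intro i hi hi0
            have h1 : 1 < q ^ i := Nat.one_lt_pow hi0 hq.out.one_lt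
            have h2 : q ^ i - 1 < Fintype.card F - 1 := by
              have := (Nat.pow_lt_pow_iff_right hq.out.one_lt).mpr (Finset.mem_range.mp hi)
              omega
            rw [← FiniteField.sum_pow_lt_card_sub_one F _ h2]
            refine Finset.sum_congr rfl fun x _ => ?_
            rcases eq_or_ne x 0 with rfl | hx
            · rw [inv_zero, zero_mul, zero_pow (by omega)]
            · rw [pow_sub₀ x hx h1.le, pow_one, mul_comm]
  have hunot : u ∉ P := fun h => by
    rw [← Ideal.Quotient.eq_zero_iff_mem, hu1, neg_eq_zero] at h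
    exact one_ne_zero h
  rw [hg, ordAt_mul (fun h0 => hunot (by rw [h0]; exact P.zero_mem)) (sub_one_ne_zero hζ),
    ordAt_of_notMem hunot, zero_add]

include hχ hζ hf in
theorem gaussSum_pow_ne_zero (k : ℕ) : gaussSum (χ ^ k) (traceChar hζ.pow_eq_one) ≠ 0 := by
  by_cases h : χ ^ k = 1
  · rw [h, gaussSum_one_left (traceChar_ne_one hζ)]
    exact neg_ne_zero.mpr one_ne_zero
  · refine gaussSum_ne_zero_of_nontrivial ?_ h (AddChar.IsPrimitive.of_ne_one (traceChar_ne_one hζ))
    exact Nat.cast_ne_zero.mpr Fintype.card_ne_zero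

/-- The order of `g(χ ^ k)`. -/
def gaussOrd (P : Ideal R) {ζ : R} (hζ : IsPrimitiveRoot ζ q) (χ : MulChar F R) (k : ℕ) : ℕ :=
  ordAt P (gaussSum (χ ^ k) (traceChar hζ.pow_eq_one))

local notation "V" => gaussOrd P hζ χ

theorem gaussOrd_of_eq_one {k : ℕ} (h : χ ^ k = 1) : V k = 0 := by
  rw [gaussOrd, h, gaussSum_one_left (traceChar_ne_one hζ), ordAt_of_isUnit hP isUnit_one.neg]

theorem gaussOrd_congr {j k : ℕ} (h : χ ^ j = χ ^ k) : V j = V k := by rw [gaussOrd, gaussOrd, h]

theorem gaussOrd_char_mul (k : ℕ) : V (q * k) = V k := by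
  rw [gaussOrd, mul_comm q k, pow_mul, gaussSum_pow_char]
  rfl

include hχ hf in
/-- The order is subadditive. -/
theorem gaussOrd_add_le (a b : ℕ) : V (a + b) ≤ V a + V b := by
  by_cases h : χ ^ (a + b) = 1
  · rw [gaussOrd_of_eq_one hζ h]
    exact Nat.zero_le _
  have hJ := jacobiSum_mul_nontrivial (χ := χ ^ a) (φ := χ ^ b) (by rwa [← pow_add])
    (traceChar hζ.pow_eq_one)
  rw [← pow_add] at hJ
  have hg := gaussSum_pow_ne_zero ι hχ hζ hf
  have hJ0 : jacobiSum (χ ^ a) (χ ^ b) ≠ 0 := fun h0 => by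
    rw [h0, mul_zero] at hJ
    exact mul_ne_zero (hg a) (hg b) hJ.symm
  have := congrArg (ordAt P) hJ
  rw [ordAt_mul (hg _) hJ0, ordAt_mul (hg a) (hg b)] at this
  exact (Nat.le_add_right _ _).trans this.le

include hχ hf in
theorem gaussOrd_mul_le (d a : ℕ) : V (d * a) ≤ d * V a := by
  induction d with
  | zero => rw [zero_mul, gaussOrd_of_eq_one hζ (pow_zero χ), zero_mul]
  | succ d ih =>
    rw [Nat.succ_mul, Nat.succ_mul]
    exact (gaussOrd_add_le ι hχ hζ hf _ _).trans (Nat.add_le_add_right ih _)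

include hχ hf in
theorem gaussOrd_one_le : V 1 ≤ ordAt P (ζ - 1) := by
  rw [gaussOrd, pow_one]
  exact ordAt_gaussSum_one_le ι hχ hζ hf

include hχ hf in
/-- The order is at most the digit sum. -/
theorem gaussOrd_le_digits (k : ℕ) : V k ≤ ordAt P (ζ - 1) * (Nat.digits q k).sum := by
  induction k using Nat.strong_induction_on with
  | _ k ih =>
    rcases Nat.eq_zero_or_pos k with rfl | hk
    · rw [gaussOrd_of_eq_one hζ (pow_zero χ)]
      exact Nat.zero_le _
    rw [Nat.digits_def' hq.out.one_lt hk, List.sum_cons, mul_add, mul_comm _ (k % q)]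
    calc V k = V (k % q * 1 + q * (k / q)) := by rw [mul_one, Nat.mod_add_div]
      _ ≤ k % q * V 1 + V (k / q) := (gaussOrd_add_le ι hχ hζ hf _ _).trans
          (add_le_add (gaussOrd_mul_le ι hχ hζ hf _ _) (gaussOrd_char_mul hζ _).le)
      _ ≤ _ := add_le_add (Nat.mul_le_mul_left _ (gaussOrd_one_le ι hχ hζ hf))
          (ih _ (Nat.div_lt_self hk hq.out.one_lt))

include hχ hf in
theorem gaussOrd_add_compl {k : ℕ} (hk0 : 0 < k) (hk : k < Fintype.card F - 1) :
    V k + V (Fintype.card F - 1 - k) = f * ((q - 1) * ordAt P (ζ - 1)) := by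
  have hn := natCast_card_sub_one_notMem ι hχ hf
  have hne : χ ^ k ≠ 1 := fun h => absurd (Nat.le_of_dvd hk0 ((pow_eq_one_iff_dvd ι hχ hn).mp h)) (by omega)
  have hinv : (χ ^ k)⁻¹ = χ ^ (Fintype.card F - 1 - k) := inv_eq_of_mul_eq_one_right (by
    rw [← pow_add, Nat.add_sub_cancel' hk.le, (pow_eq_one_iff_dvd ι hχ hn).mpr dvd_rfl])
  have hprod := gaussSum_mul_gaussSum_eq_card hne
    (AddChar.IsPrimitive.of_ne_one (traceChar_ne_one hζ))
  rw [hinv] at hprod
  have hsign := mul_gaussSum_inv_eq_gaussSum (χ ^ (Fintype.card F - 1 - k))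
    (traceChar (F := F) hζ.pow_eq_one)
  have hu : IsUnit ((χ ^ (Fintype.card F - 1 - k)) (-1 : F)) := (isUnit_one.neg).map _
  have hord : ordAt P (gaussSum (χ ^ (Fintype.card F - 1 - k)) (traceChar hζ.pow_eq_one)⁻¹) =
      V (Fintype.card F - 1 - k) := by
    refine ordAt_of_associated ?_
    rw [← hsign, mul_comm]
    exact associated_mul_unit_right _ _ hu
  have h := congrArg (ordAt P) hprod
  rw [ordAt_mul (gaussSum_pow_ne_zero ι hχ hζ hf k) (fun h0 => by
    rw [h0, mul_zero] at hprod
    exact Nat.cast_ne_zero.mpr Fintype.card_ne_zero hprod.symm), hord, hf, Nat.cast_pow,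
    ordAt_pow hP (Nat.cast_ne_zero.mpr hq.out.ne_zero), ordAt_natCast_prime hP hζ] at h
  rw [gaussOrd, hf]
  exact h

omit hq in
theorem digits_sum_eq (hq1 : 1 < q) (n : ℕ) :
    (Nat.digits q n).sum = n % q + (Nat.digits q (n / q)).sum := by
  rcases Nat.eq_zero_or_pos n with rfl | hn
  · simp
  · rw [Nat.digits_def' hq1 hn, List.sum_cons]

omit hq in
theorem digits_sum_add_compl (hq1 : 1 < q) : ∀ (e : ℕ) {k : ℕ}, k < q ^ e →
    (Nat.digits q k).sum + (Nat.digits q (q ^ e - 1 - k)).sum = e * (q - 1) := by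
  intro e
  induction e with
  | zero =>
    intro k hk
    rw [pow_zero, Nat.lt_one_iff] at hk
    simp [hk]
  | succ e ih =>
    intro k hk
    have hd := Nat.mod_lt k (show 0 < q by omega)
    have hlt : k / q < q ^ e := Nat.div_lt_of_lt_mul (by rwa [pow_succ'] at hk)
    have hsplit : q ^ (e + 1) - 1 - k = (q - 1 - k % q) + q * (q ^ e - 1 - k / q) := by
      have h1 := Nat.mod_add_div k q
      zify [show k % q + 1 ≤ q by omega, show k / q + 1 ≤ q ^ e by omega, show k + 1 ≤ q ^ (e + 1) by omega,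
        show 1 ≤ q by omega, show k % q ≤ q - 1 by omega, show k / q ≤ q ^ e - 1 by omega,
        show k ≤ q ^ (e + 1) - 1 by omega, Nat.one_le_pow e q (by omega),
        Nat.one_le_pow (e + 1) q (by omega)] at h1 ⊢
      rw [pow_succ']
      linear_combination h1
    rw [digits_sum_eq hq1 k, digits_sum_eq hq1 (q ^ (e + 1) - 1 - k), hsplit,
      Nat.add_mul_div_left _ _ (show 0 < q by omega), Nat.add_mul_mod_self_left,
      Nat.mod_eq_of_lt (show q - 1 - k % q < q by omega), Nat.div_eq_of_lt (show q - 1 - k % q < q by omega),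
      zero_add, Nat.succ_mul, ← ih hlt]
    omega

include hχ hf in
/-- **The order of a Gauss sum**: the digit sum in base `q`. -/
theorem gaussOrd_eq_digits {k : ℕ} (hk : k < Fintype.card F - 1) :
    V k = ordAt P (ζ - 1) * (Nat.digits q k).sum := by
  rcases Nat.eq_zero_or_pos k with rfl | hk0
  · rw [gaussOrd_of_eq_one hζ (pow_zero χ)]
    simp
  have h1 := gaussOrd_le_digits ι hχ hζ hf k
  have h2 := gaussOrd_le_digits ι hχ hζ hf (Fintype.card F - 1 - k)
  have h3 := gaussOrd_add_compl ι hχ hζ hf hk0 hk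
  have h4 := congrArg (ordAt P (ζ - 1) * ·)
    (digits_sum_add_compl hq.out.one_lt f (k := k) (by rw [← hf]; omega))
  simp only [mul_add, ← hf] at h4
  have h5 : f * ((q - 1) * ordAt P (ζ - 1)) = ordAt P (ζ - 1) * (f * (q - 1)) := by ring
  omega

/-- The sum of the residues of `k, q k, q² k, …` modulo `q ^ f - 1`. -/
def orbitSum (q N f k : ℕ) : ℕ := ∑ i ∈ Finset.range f, q ^ i * k % N

include hχ hf in
/-- The order is bounded by the orbit sum. -/
theorem gaussOrd_mul_le_orbitSum {k : ℕ} (hk : k < Fintype.card F - 1) :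
    (Fintype.card F - 1) * V k ≤ (q - 1) * ordAt P (ζ - 1) * orbitSum q (Fintype.card F - 1) f k := by
  set N := Fintype.card F - 1 with hN
  have hqf : q ^ f = N + 1 := by rw [← hf, hN, Nat.sub_add_cancel Fintype.card_pos]
  set r : ℕ → ℕ := fun i => q ^ i * k % N with hr
  set c : ℕ → ℕ := fun i => q * r i / N with hc
  have hstep : ∀ i, q * r i = N * c i + r (i + 1) := fun i => by
    have h := Nat.div_add_mod (q * r i) N
    rw [Nat.mul_mod q (r i)] at h
    simp only [hr, hc] at h ⊢
    rw [Nat.mod_mod, ← Nat.mul_mod, ← mul_assoc, ← pow_succ'] at h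
    exact h.symm
  have hrf : r f = k := by
    show q ^ f * k % N = k
    rw [hqf, add_mul, one_mul, Nat.mul_add_mod, Nat.mod_eq_of_lt hk]
  have hr0 : r 0 = k := by
    show q ^ 0 * k % N = k
    rw [pow_zero, one_mul, Nat.mod_eq_of_lt hk]
  have hA : ∀ n, q ^ n * k = N * (∑ i ∈ Finset.range n, c i * q ^ (n - 1 - i)) + r n := by
    intro n
    induction n with
    | zero => simp [hr0]
    | succ n ih =>
      have hsum : ∑ i ∈ Finset.range n, c i * q ^ (n + 1 - 1 - i) =
          q * ∑ i ∈ Finset.range n, c i * q ^ (n - 1 - i) := by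
        rw [Finset.mul_sum]
        refine Finset.sum_congr rfl fun i hi => ?_
        rw [Finset.mem_range] at hi
        rw [show n + 1 - 1 - i = (n - 1 - i) + 1 by omega, pow_succ]
        ring
      rw [Finset.sum_range_succ, hsum, show n + 1 - 1 - n = 0 by omega, pow_zero, mul_one]
      linear_combination q * ih + hstep n
  have hk' : k = ∑ i ∈ Finset.range f, c i * q ^ (f - 1 - i) := by
    have h := hA f
    rw [hrf, hqf, add_mul, one_mul, Nat.add_right_cancel_iff] at h
    exact Nat.eq_of_mul_eq_mul_left (show 0 < N by omega) h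
  have hqV : ∀ j, V (q ^ j) = V 1 := fun j => by
    induction j with
    | zero => rw [pow_zero]
    | succ j ih => rw [pow_succ', gaussOrd_char_mul, ih]
  have hle : ∀ s : Finset ℕ, V (∑ i ∈ s, c i * q ^ (f - 1 - i)) ≤ (∑ i ∈ s, c i) * V 1 := fun s => by
    induction s using Finset.induction_on with
    | empty => simp [gaussOrd_of_eq_one hζ (pow_zero χ)]
    | insert a s ha ih =>
      rw [Finset.sum_insert ha, Finset.sum_insert ha, add_mul]
      exact (gaussOrd_add_le ι hχ hζ hf _ _).trans
        (add_le_add ((gaussOrd_mul_le ι hχ hζ hf _ _).trans_eq (by rw [hqV])) ih)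
  have hNc : N * ∑ i ∈ Finset.range f, c i = (q - 1) * orbitSum q N f k := by
    have hshift : ∑ i ∈ Finset.range f, r (i + 1) = ∑ i ∈ Finset.range f, r i := by
      have h := Finset.sum_range_succ' r f
      rw [Finset.sum_range_succ, hrf, hr0] at h
      omega
    have h : q * orbitSum q N f k = N * (∑ i ∈ Finset.range f, c i) + orbitSum q N f k := by
      rw [orbitSum, Finset.mul_sum, Finset.sum_congr rfl fun i _ => hstep i, Finset.sum_add_distrib,
        hshift, ← Finset.mul_sum]
    rw [Nat.sub_mul q 1, one_mul]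
    exact Nat.eq_sub_of_add_eq h.symm
  calc N * V k ≤ N * ((∑ i ∈ Finset.range f, c i) * V 1) := Nat.mul_le_mul_left _ (by
        conv_lhs => rw [hk']
        exact hle _)
    _ ≤ N * (∑ i ∈ Finset.range f, c i) * ordAt P (ζ - 1) := by
        rw [← mul_assoc]
        exact Nat.mul_le_mul_left _ (gaussOrd_one_le ι hχ hζ hf)
    _ = _ := by rw [hNc]; ring

include hf in
theorem orbitSum_add_compl {k : ℕ} (hk0 : 0 < k) (hk : k < Fintype.card F - 1) :
    orbitSum q (Fintype.card F - 1) f k + orbitSum q (Fintype.card F - 1) f (Fintype.card F - 1 - k) =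
      f * (Fintype.card F - 1) := by
  set N := Fintype.card F - 1 with hN
  have hN0 : 0 < N := by omega
  have hqf : q ^ f = N + 1 := by rw [← hf, hN, Nat.sub_add_cancel Fintype.card_pos]
  rw [orbitSum, orbitSum, ← Finset.sum_add_distrib,
    Finset.sum_congr rfl (g := fun _ => N), Finset.sum_const, Finset.card_range, smul_eq_mul]
  intro i hi
  rw [Finset.mem_range] at hi
  have ha : q ^ i * k % N ≠ 0 := fun h => by
    have h1 : q ^ (f - i) * (q ^ i * k) % N = 0 := by rw [Nat.mul_mod, h, mul_zero, Nat.zero_mod]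
    rw [← mul_assoc, ← pow_add, Nat.sub_add_cancel hi.le, hqf, add_mul, one_mul, Nat.mul_add_mod,
      Nat.mod_eq_of_lt hk] at h1
    omega
  have hsum : (q ^ i * k % N + q ^ i * (N - k) % N) % N = 0 := by
    rw [← Nat.add_mod, ← mul_add, Nat.add_sub_cancel' hk.le, Nat.mul_mod_left]
  obtain ⟨t, ht⟩ := Nat.dvd_of_mod_eq_zero hsum
  have h2 := Nat.mod_lt (q ^ i * k) hN0
  have h3 := Nat.mod_lt (q ^ i * (N - k)) hN0
  rcases t with _ | _ | t
  · omega
  · omega
  · nlinarith

include hχ hf in
/-- **The order of a Gauss sum**: the orbit sum. -/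
theorem mul_gaussOrd_eq {k : ℕ} (hk : k < Fintype.card F - 1) :
    (Fintype.card F - 1) * V k = (q - 1) * ordAt P (ζ - 1) * orbitSum q (Fintype.card F - 1) f k := by
  rcases Nat.eq_zero_or_pos k with rfl | hk0
  · simp [gaussOrd_of_eq_one hζ (pow_zero χ), orbitSum]
  have h1 := gaussOrd_mul_le_orbitSum ι hχ hζ hf hk
  have h2 := gaussOrd_mul_le_orbitSum ι hχ hζ hf (k := Fintype.card F - 1 - k) (by omega)
  have h3 := congrArg ((Fintype.card F - 1) * ·) (gaussOrd_add_compl ι hχ hζ hf hk0 hk)
  have h4 := congrArg ((q - 1) * ordAt P (ζ - 1) * ·) (orbitSum_add_compl hf hk0 hk)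
  simp only [mul_add] at h3 h4
  have h5 : (q - 1) * ordAt P (ζ - 1) * (f * (Fintype.card F - 1)) =
      (Fintype.card F - 1) * (f * ((q - 1) * ordAt P (ζ - 1))) := by ring
  omega

end valuation

end FA.GaussValuation
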